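import Mathlib
import Fermat.Agent.S20.FixPoints

/-!
# S18, block D5 (a): no elliptic points at the auxiliary levels

`Γ₀(M)` has no elliptic elements as soon as `4 ∣ M` (or `3 ∣ M`) for the order-two points and
`2 ∣ M` (or `9 ∣ M`) for the order-three points.  In terms of the action of `SL(2, ℤ)` on the
cosets `SL(2, ℤ) ⧸ Γ₀(M)`: the elements `S` and `S * T` have no fixed points.

In particular for `M' = 4 N` and for `M' = 9 N` both `S` and `S * T` act freely.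
-/

set_option autoImplicit false

namespace Fermat.Agent.S18.NoElliptic

open scoped MatrixGroups
open CongruenceSubgroup ModularGroup ModularCurve

/-- transport of a root of an integer-coefficient equation along `ZMod M → ZMod d`, `d ∣ M`. -/
theorem nuTwo_eq_zero_of_dvd {d M : ℕ} (hd : d ∣ M)
    (h : ∀ y : ZMod d, y ^ 2 + 1 ≠ 0) : nuTwo M = 0 := by
  unfold nuTwo
  have : IsEmpty {x : ZMod M // x ^ 2 + 1 = 0} := by
    refine ⟨fun x => ?_⟩
    apply h (ZMod.castHom hd (ZMod d) x.1)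
    rw [← map_pow, ← map_one (ZMod.castHom hd (ZMod d)), ← map_add, x.2, map_zero]
  exact Nat.card_of_isEmpty

theorem nuThree_eq_zero_of_dvd {d M : ℕ} (hd : d ∣ M)
    (h : ∀ y : ZMod d, y ^ 2 + y + 1 ≠ 0) : nuThree M = 0 := by
  unfold nuThree
  have : IsEmpty {x : ZMod M // x ^ 2 + x + 1 = 0} := by
    refine ⟨fun x => ?_⟩
    apply h (ZMod.castHom hd (ZMod d) x.1)
    rw [← map_pow, ← map_one (ZMod.castHom hd (ZMod d)), ← map_add, ← map_add, x.2, map_zero]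
  exact Nat.card_of_isEmpty

theorem nuTwo_eq_zero_of_four_dvd {M : ℕ} (h : 4 ∣ M) : nuTwo M = 0 :=
  nuTwo_eq_zero_of_dvd h (by decide)

theorem nuTwo_eq_zero_of_three_dvd {M : ℕ} (h : 3 ∣ M) : nuTwo M = 0 :=
  nuTwo_eq_zero_of_dvd h (by decide)

theorem nuThree_eq_zero_of_two_dvd {M : ℕ} (h : 2 ∣ M) : nuThree M = 0 :=
  nuThree_eq_zero_of_dvd h (by decide)

theorem nuThree_eq_zero_of_nine_dvd {M : ℕ} (h : 9 ∣ M) : nuThree M = 0 :=
  nuThree_eq_zero_of_dvd h (by decide)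

/-- if `ν₂(M) = 0` then `S` has no fixed point on `SL(2, ℤ) ⧸ Γ₀(M)`. -/
theorem S_smul_ne_of_nuTwo (M : ℕ) [NeZero M] (h : nuTwo M = 0) (c : SL(2, ℤ) ⧸ Gamma0 M) :
    (S : SL(2, ℤ)) • c ≠ c := by
  intro hc
  have h1 := Fermat.Agent.S20.card_fixedBy_S M
  rw [h] at h1
  have : Finite (MulAction.fixedBy (SL(2, ℤ) ⧸ Gamma0 M) S) := by
    have : Finite (SL(2, ℤ) ⧸ Gamma0 M) := by
      have hfi : (Gamma0 M).FiniteIndex := inferInstance
      exact Subgroup.finite_quotient_of_finiteIndex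
    exact Subtype.finite
  have hne : Nonempty (MulAction.fixedBy (SL(2, ℤ) ⧸ Gamma0 M) S) := ⟨⟨c, hc⟩⟩
  exact Nat.card_pos.ne' h1

/-- if `ν₃(M) = 0` then `S * T` has no fixed point on `SL(2, ℤ) ⧸ Γ₀(M)`. -/
theorem ST_smul_ne_of_nuThree (M : ℕ) [NeZero M] (h : nuThree M = 0)
    (c : SL(2, ℤ) ⧸ Gamma0 M) : (S * T : SL(2, ℤ)) • c ≠ c := by
  intro hc
  have h1 := Fermat.Agent.S20.card_fixedBy_ST M
  rw [h] at h1
  have : Finite (MulAction.fixedBy (SL(2, ℤ) ⧸ Gamma0 M) (S * T)) := by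
    have : Finite (SL(2, ℤ) ⧸ Gamma0 M) := by
      have hfi : (Gamma0 M).FiniteIndex := inferInstance
      exact Subgroup.finite_quotient_of_finiteIndex
    exact Subtype.finite
  have hne : Nonempty (MulAction.fixedBy (SL(2, ℤ) ⧸ Gamma0 M) (S * T)) := ⟨⟨c, hc⟩⟩
  exact Nat.card_pos.ne' h1

/-- at level `4 N` there are no elliptic points of order two … -/
theorem S_smul_ne_four_mul (N : ℕ) [NeZero N] (c : SL(2, ℤ) ⧸ Gamma0 (4 * N)) :
    (S : SL(2, ℤ)) • c ≠ c :=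
  S_smul_ne_of_nuTwo (4 * N) (nuTwo_eq_zero_of_four_dvd (Dvd.intro _ rfl)) c

/-- … and none of order three. -/
theorem ST_smul_ne_four_mul (N : ℕ) [NeZero N] (c : SL(2, ℤ) ⧸ Gamma0 (4 * N)) :
    (S * T : SL(2, ℤ)) • c ≠ c :=
  ST_smul_ne_of_nuThree (4 * N)
    (nuThree_eq_zero_of_two_dvd (Dvd.dvd.mul_right (by norm_num : 2 ∣ 4) N)) c

/-- at level `9 N` there are no elliptic points of order two … -/
theorem S_smul_ne_nine_mul (N : ℕ) [NeZero N] (c : SL(2, ℤ) ⧸ Gamma0 (9 * N)) :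
    (S : SL(2, ℤ)) • c ≠ c :=
  S_smul_ne_of_nuTwo (9 * N)
    (nuTwo_eq_zero_of_three_dvd (Dvd.dvd.mul_right (by norm_num : 3 ∣ 9) N)) c

/-- … and none of order three. -/
theorem ST_smul_ne_nine_mul (N : ℕ) [NeZero N] (c : SL(2, ℤ) ⧸ Gamma0 (9 * N)) :
    (S * T : SL(2, ℤ)) • c ≠ c :=
  ST_smul_ne_of_nuThree (9 * N) (nuThree_eq_zero_of_nine_dvd (Dvd.intro _ rfl)) c

end Fermat.Agent.S18.NoElliptic
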