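import Mathlib
import Fermat.Agent.S24.FiniteFibres
import Fermat.Agent.S18.NoElliptic.Free

/-!
# S18, block D5 (b): ramification of `F_M / K(J)` over the finite points, place by place

`FF M = K(j_d : d ∣ M)` with `K = AlgebraicClosure ℚ`.  From the fibre models of S24 (places over
`J = a` ↔ orbits of the stabiliser on the cosets of `Γ₀(M)`, ramification index = orbit size) we
extract the statement for every single place `v` of `FF M`:

* `0 < v.ord (J - a)`, `a ≠ 0, 1728`  ⟹ `v.ord (J - a) = 1`;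
* `0 < v.ord (J - 1728)` and `ν₂(M) = 0` ⟹ `v.ord (J - 1728) = 2`;
* `0 < v.ord J` and `ν₃(M) = 0` ⟹ `v.ord J = 3`.

For `M = 4 N` and `M = 9 N` both hypotheses hold (`Free.lean`).
-/

set_option autoImplicit false
set_option linter.unusedSectionVars false
set_option linter.unusedVariables false

namespace Fermat.Agent.S18.NoElliptic

open scoped MatrixGroups
open IntermediateField UpperHalfPlane CongruenceSubgroup ModularGroup AlgebraicCurve
open Fermat.Agent.S20 Fermat.Agent.S24 Fermat.Agent.S24.PsiLe Fermat.Agent.S24.BridgeInv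
  Fermat.Agent.S24.PlaceAt Fermat.Agent.S24.FiniteFibres

noncomputable section

variable {N : ℕ} [NeZero N] {Φ : FF N →+* Mer}

/-- the per-place form of the abstract fibre theorem for a fibre model over `J = a`. -/
theorem exists_place_eq_and_ord_eq (hΦ : IsBridge N Φ) (hJ : Transcendental Kbar (J N))
    [FiniteDimensional Kbar⟮J N⟯ (FF N)] (a : Kbar) {H : Subgroup SL(2, ℤ)}
    (M : FibreModel Kbar (J N - algebraMap Kbar (FF N) a) (Q N) H)
    (v : Place Kbar (FF N)) (hv : 0 < v.ord (J N - algebraMap Kbar (FF N) a)) :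
    ∃ c : Q N, v = M.place c ∧
      v.ord (J N - algebraMap Kbar (FF N) a) = Nat.card (MulAction.orbit H c) := by
  classical
  have hy : Transcendental Kbar (J N - algebraMap Kbar (FF N) a) := transcendental_sub_const hJ a
  have hfin := FFGenus.zeros_finite' (J N) hJ (J N - algebraMap Kbar (FF N) a) hy
  have hsum := FFGenus.sum_ord_zeros' (J N) hJ (J N - algebraMap Kbar (FF N) a) hy
  have hZ : ∀ v, v ∈ hfin.toFinset ↔ 0 < v.ord (J N - algebraMap Kbar (FF N) a) := fun v => by
    rw [Set.Finite.mem_toFinset]; rfl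
  have hn : Module.finrank Kbar⟮J N - algebraMap Kbar (FF N) a⟯ (FF N)
      = Module.finrank Kbar⟮J N⟯ (FF N) := by
    rw [adjoin_sub_const]
  have hcard : Fintype.card (Q N)
      ≤ Module.finrank Kbar⟮J N - algebraMap Kbar (FF N) a⟯ (FF N) := by
    rw [hn, ← Nat.card_eq_fintype_card]
    have h1 : Nat.card (Q N) = ModularCurve.dedekindPsi N := card_quotient_Gamma0 N
    rw [h1]
    exact hΦ.psi_le_finrank
  have : Nonempty (Q N) := ⟨QuotientGroup.mk 1⟩
  have hmain := M.main (Module.finrank Kbar⟮J N - algebraMap Kbar (FF N) a⟯ (FF N)) hcard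
    hfin.toFinset hZ hsum
    (fun v hv S hS hvS => FFGenus.happrox (J N) hJ (J N - algebraMap Kbar (FF N) a) hy v
      ((hZ v).mp hv) S (fun w hw => (hZ w).mp (hS hw)) hvS)
    (fun f hf hfint v hv => by
      have hyv : (J N - algebraMap Kbar (FF N) a) ∈ v.toValuationSubring :=
        (mem_iff_ord_nonneg v M.y_ne).mpr ((hZ v).mp hv).le
      exact (mem_iff_ord_nonneg v hf).mp (Exhaust.mem_of_isIntegral v hyv hfint))
  obtain ⟨hex, -, hord, -, -⟩ := hmain
  obtain ⟨c, hc⟩ := hex v ((hZ v).mpr hv)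
  exact ⟨c, hc, by rw [hc]; exact hord c⟩

/-- generic fibres are unramified, place by place. -/
theorem ord_J_sub_generic_of_isBridge (hΦ : IsBridge N Φ) (hJ : Transcendental Kbar (J N))
    [FiniteDimensional Kbar⟮J N⟯ (FF N)] (hinv : Inv Φ) (a : Kbar) (h0 : a ≠ 0)
    (h1 : a ≠ 1728) (v : Place Kbar (FF N))
    (hv : 0 < v.ord (J N - algebraMap Kbar (FF N) a)) :
    v.ord (J N - algebraMap Kbar (FF N) a) = 1 := by
  obtain ⟨z0, hz0⟩ := exists_point_of_const hΦ a
  have hne := jFun_ne_of_const_ne hΦ hz0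
  obtain ⟨c, -, hc⟩ := exists_place_eq_and_ord_eq hΦ hJ a
    (fibreModelGeneric hΦ z0 hz0 (hne.1 h0) (hne.2 h1) (normHyp_of_inv hΦ hinv _ _)) v hv
  rw [hc, card_orbit_bot]
  rfl

/-- without elliptic points of order two every place over `1728` has ramification index `2`. -/
theorem ord_J_sub_1728_of_isBridge (hΦ : IsBridge N Φ) (hJ : Transcendental Kbar (J N))
    [FiniteDimensional Kbar⟮J N⟯ (FF N)] (hinv : Inv Φ)
    (hfree : ∀ c : Q N, (S : SL(2, ℤ)) • c ≠ c) (v : Place Kbar (FF N))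
    (hv : 0 < v.ord (J N - algebraMap Kbar (FF N) 1728)) :
    v.ord (J N - algebraMap Kbar (FF N) 1728) = 2 := by
  obtain ⟨c, -, hc⟩ := exists_place_eq_and_ord_eq hΦ hJ 1728
    (fibreModel1728 hΦ (phi_const_1728 Φ) (normHyp_of_inv hΦ hinv _ _)) v hv
  rw [hc]
  rcases card_orbit_S N c with h | h
  · exact absurd h.2 (hfree c)
  · rw [h.1]
    rfl

/-- without elliptic points of order three every place over `0` has ramification index `3`. -/
theorem ord_J_sub_zero_of_isBridge (hΦ : IsBridge N Φ) (hJ : Transcendental Kbar (J N))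
    [FiniteDimensional Kbar⟮J N⟯ (FF N)] (hinv : Inv Φ)
    (hfree : ∀ c : Q N, (S * T : SL(2, ℤ)) • c ≠ c) (v : Place Kbar (FF N))
    (hv : 0 < v.ord (J N - algebraMap Kbar (FF N) 0)) :
    v.ord (J N - algebraMap Kbar (FF N) 0) = 3 := by
  obtain ⟨c, -, hc⟩ := exists_place_eq_and_ord_eq hΦ hJ 0
    (fibreModelZero hΦ (phi_const_zero Φ) (normHyp_of_inv hΦ hinv _ _)) v hv
  rw [hc]
  rcases card_orbit_ST N c with h | h
  · exact absurd h.2 (hfree c)
  · rw [h.1]
    rfl

/-! ### unconditional versions -/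

/-- **(U1)** over `a ≠ 0, 1728` every place of `FF N` is unramified over `K(J)`. -/
theorem ord_J_sub_generic (N : ℕ) [NeZero N] (a : Kbar) (h0 : a ≠ 0) (h1 : a ≠ 1728)
    (v : Place Kbar (FF N)) (hv : 0 < v.ord (J N - algebraMap Kbar (FF N) a)) :
    v.ord (J N - algebraMap Kbar (FF N) a) = 1 :=
  ord_J_sub_generic_of_isBridge (BridgePhi.isBridge_PhiBar N) (transcendental_J N)
    (inv_of_isBridge (BridgePhi.isBridge_PhiBar N)) a h0 h1 v hv

/-- **(U2)** if `ν₂(N) = 0`, every place over `J = 1728` has `e = 2`. -/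
theorem ord_J_sub_1728 (N : ℕ) [NeZero N] (h : ModularCurve.nuTwo N = 0)
    (v : Place Kbar (FF N)) (hv : 0 < v.ord (J N - algebraMap Kbar (FF N) 1728)) :
    v.ord (J N - algebraMap Kbar (FF N) 1728) = 2 :=
  ord_J_sub_1728_of_isBridge (BridgePhi.isBridge_PhiBar N) (transcendental_J N)
    (inv_of_isBridge (BridgePhi.isBridge_PhiBar N)) (S_smul_ne_of_nuTwo N h) v hv

/-- **(U3)** if `ν₃(N) = 0`, every place over `J = 0` has `e = 3`. -/
theorem ord_J_sub_zero (N : ℕ) [NeZero N] (h : ModularCurve.nuThree N = 0)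
    (v : Place Kbar (FF N)) (hv : 0 < v.ord (J N - algebraMap Kbar (FF N) 0)) :
    v.ord (J N - algebraMap Kbar (FF N) 0) = 3 :=
  ord_J_sub_zero_of_isBridge (BridgePhi.isBridge_PhiBar N) (transcendental_J N)
    (inv_of_isBridge (BridgePhi.isBridge_PhiBar N)) (ST_smul_ne_of_nuThree N h) v hv

end

end Fermat.Agent.S18.NoElliptic
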