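import Mathlib
import Fermat.Agent.S24.AbstractFibre
import Fermat.Agent.S18.NoElliptic.PlaceOrd

/-!
# S18, block D5 (c): `F_{M'} / K(t)` is unramified outside the cusp values of `t`

Abstract part: if `y * D(t) = P(t)` with `D(t0) ≠ 0`, `(X - t0)^k ∣ P` and every place over
`y = 0` has `ord y = k`, then every place over `t = t0` has `ord (t - t0) = 1`.

Modular part: if `t ∈ FF M` satisfies `J * D(t) = H(t)^3` and `H^3 - 1728 D = G^2` as polynomials,
and `Γ₀(M)` has no elliptic points (`ν₂(M) = ν₃(M) = 0`), then `ord_v (t - t0) = 1` for every place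
`v` over a value `t0` with `D(t0) ≠ 0` (the zeros of `D` are the finite cusp values).

Instances: the level-4 shape `J t⁴ (t + 16) = (t² + 256 t + 4096)³` at level `4 N` and the level-9
shape `J t (t² + 9 t + 27) = ((t + 3)(t³ + 9 t² + 27 t + 3))³` at level `9 N`.
-/

set_option autoImplicit false
set_option linter.unusedSectionVars false
set_option linter.unusedVariables false

namespace Fermat.Agent.S18.NoElliptic

open AlgebraicCurve Polynomial Fermat.Agent.S24

noncomputable section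

section Abstract

variable {K F : Type*} [Field K] [Field F] [Algebra K F]

/-- the order of a polynomial in `t` at a place over `t = t0` is the root multiplicity at `t0` times
the order of `t - t0`. -/
theorem ord_aeval_of_pos (v : Place K F) (t : F) (t0 : K)
    (hv : 0 < v.ord (t - algebraMap K F t0)) (P : K[X]) (hP : P ≠ 0) :
    aeval t P ≠ 0 ∧
      v.ord (aeval t P) = P.rootMultiplicity t0 * v.ord (t - algebraMap K F t0) := by
  have hu0 : t - algebraMap K F t0 ≠ 0 := by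
    intro h
    rw [h, Place.ord_zero] at hv
    exact lt_irrefl _ hv
  have hQ0 : P.comp (X + C t0) ≠ 0 := comp_X_add_C_ne_zero_iff.mpr hP
  have hcomp : aeval (t - algebraMap K F t0) (P.comp (X + C t0)) = aeval t P := by
    rw [aeval_comp, map_add, aeval_X, aeval_C, sub_add_cancel]
  have h := (isOrdFun_placeOrd v).aeval_eq hu0 hv (P.comp (X + C t0)) hQ0
  rw [hcomp, ← rootMultiplicity_eq_rootMultiplicity] at h
  exact h

/-- the abstract unramifiedness criterion. -/
theorem ord_sub_eq_one_of_pow_dvd (v : Place K F) (t y : F) (t0 : K) (D P : K[X]) (k : ℕ)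
    (hk : 0 < k) (hy : y ≠ 0) (hD : D.eval t0 ≠ 0) (heq : y * aeval t D = aeval t P)
    (hkP : (X - C t0) ^ k ∣ P) (hord : 0 < v.ord y → v.ord y = k)
    (hv : 0 < v.ord (t - algebraMap K F t0)) : v.ord (t - algebraMap K F t0) = 1 := by
  have hD0 : D ≠ 0 := by
    rintro rfl
    simp at hD
  obtain ⟨hDt, hDord⟩ := ord_aeval_of_pos v t t0 hv D hD0
  have hmD : D.rootMultiplicity t0 = 0 := rootMultiplicity_eq_zero hD
  rw [hmD, Nat.cast_zero, zero_mul] at hDord
  have hP0 : P ≠ 0 := by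
    rintro rfl
    rw [map_zero] at heq
    exact mul_ne_zero hy hDt heq
  obtain ⟨hPt, hPord⟩ := ord_aeval_of_pos v t t0 hv P hP0
  have hkm : k ≤ P.rootMultiplicity t0 := (le_rootMultiplicity_iff hP0).mpr hkP
  have hyord : v.ord y = P.rootMultiplicity t0 * v.ord (t - algebraMap K F t0) := by
    rw [← hPord, ← heq, v.ord_mul hy hDt, hDord, add_zero]
  have hkm' : (k : ℤ) ≤ (P.rootMultiplicity t0 : ℤ) := by exact_mod_cast hkm
  have hk' : (0 : ℤ) < k := by exact_mod_cast hk
  have hpos : 0 < v.ord y := by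
    rw [hyord]
    exact mul_pos (by linarith) hv
  have h1 := hord hpos
  rw [hyord] at h1
  nlinarith

end Abstract

section Modular

open Fermat.Agent.S24.BridgeInv Fermat.Agent.S24.PlaceAt

variable (M : ℕ) [NeZero M]

/-- **D5, general shape.**  If `Γ₀(M)` has no elliptic points and `t ∈ FF M` satisfies
`J * D(t) = H(t)^3` with `H^3 - 1728 D = G^2` in `K[X]`, then `FF M / K(t)` is unramified at every
place over a value `t0` with `D(t0) ≠ 0`. -/
theorem ord_sub_eq_one_of_param (h2 : ModularCurve.nuTwo M = 0) (h3 : ModularCurve.nuThree M = 0)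
    (t : FF M) (Dp Hp Gp : Kbar[X]) (hG : Hp ^ 3 - C 1728 * Dp = Gp ^ 2)
    (hj : J M * aeval t Dp = aeval t Hp ^ 3) (v : Place Kbar (FF M)) (t0 : Kbar)
    (hD : Dp.eval t0 ≠ 0) (hv : 0 < v.ord (t - algebraMap Kbar (FF M) t0)) :
    v.ord (t - algebraMap Kbar (FF M) t0) = 1 := by
  have hΦ := Fermat.Agent.S24.BridgePhi.isBridge_PhiBar M
  set a : Kbar := Hp.eval t0 ^ 3 / Dp.eval t0 with ha
  have hy : J M - algebraMap Kbar (FF M) a ≠ 0 := J_sub_ne_zero hΦ a
  have heq : (J M - algebraMap Kbar (FF M) a) * aeval t Dp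
      = aeval t (Hp ^ 3 - C a * Dp) := by
    rw [map_sub, map_pow, map_mul, aeval_C, sub_mul, hj]
  have hroot : (Hp ^ 3 - C a * Dp).eval t0 = 0 := by
    rw [eval_sub, eval_pow, eval_mul, eval_C, ha, div_mul_cancel₀ _ hD, sub_self]
  by_cases ha0 : a = 0
  · -- over `J = 0`
    have hH : Hp.eval t0 = 0 := by
      have : Hp.eval t0 ^ 3 = 0 := by
        have h := hroot
        rw [eval_sub, eval_pow, eval_mul, eval_C, ha0, zero_mul, sub_zero] at h
        exact h
      exact pow_eq_zero_iff (by norm_num) |>.mp this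
    have hdvd : (X - C t0) ^ 3 ∣ Hp ^ 3 - C a * Dp := by
      rw [ha0, map_zero, zero_mul, sub_zero]
      exact pow_dvd_pow_of_dvd (dvd_iff_isRoot.mpr hH) 3
    refine ord_sub_eq_one_of_pow_dvd v t _ t0 Dp _ 3 (by norm_num) hy hD heq hdvd ?_ hv
    intro hpos
    rw [ha0] at hpos ⊢
    exact_mod_cast ord_J_sub_zero M h3 v hpos
  by_cases ha1 : a = 1728
  · -- over `J = 1728`
    have hGe : Gp.eval t0 = 0 := by
      have : Gp.eval t0 ^ 2 = 0 := by
        rw [← eval_pow, ← hG, ← ha1]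
        have : (C a : Kbar[X]) = C (a : Kbar) := rfl
        exact hroot
      exact pow_eq_zero_iff (by norm_num) |>.mp this
    have hdvd : (X - C t0) ^ 2 ∣ Hp ^ 3 - C a * Dp := by
      rw [ha1, hG]
      exact pow_dvd_pow_of_dvd (dvd_iff_isRoot.mpr hGe) 2
    refine ord_sub_eq_one_of_pow_dvd v t _ t0 Dp _ 2 (by norm_num) hy hD heq hdvd ?_ hv
    intro hpos
    rw [ha1] at hpos ⊢
    exact_mod_cast ord_J_sub_1728 M h2 v hpos
  · -- generic value
    have hdvd : (X - C t0) ^ 1 ∣ Hp ^ 3 - C a * Dp := by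
      rw [pow_one]
      exact dvd_iff_isRoot.mpr hroot
    refine ord_sub_eq_one_of_pow_dvd v t _ t0 Dp _ 1 one_pos hy hD heq hdvd ?_ hv
    intro hpos
    exact_mod_cast ord_J_sub_generic M a ha0 ha1 v hpos

set_option synthInstance.maxHeartbeats 200000 in
/-- **D5 at level `4 ∣ M`**, for a Hauptmodul `t` of `Γ₀(4)` normalised by
`J t⁴ (t + 16) = (t² + 256 t + 4096)³`: `FF M / K(t)` is unramified outside `t = ∞, 0, -16`. -/
theorem ord_sub_eq_one_of_four_dvd (h4 : 4 ∣ M) (t : FF M)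
    (hj : J M * t ^ 4 * (t + 16) = (t ^ 2 + 256 * t + 4096) ^ 3)
    (v : Place Kbar (FF M)) (t0 : Kbar) (h0 : t0 ≠ 0) (h16 : t0 ≠ -16)
    (hv : 0 < v.ord (t - algebraMap Kbar (FF M) t0)) :
    v.ord (t - algebraMap Kbar (FF M) t0) = 1 := by
  have h2 : ModularCurve.nuTwo M = 0 := nuTwo_eq_zero_of_four_dvd h4
  have h3 : ModularCurve.nuThree M = 0 :=
    nuThree_eq_zero_of_two_dvd (dvd_trans (by norm_num : 2 ∣ 4) h4)
  refine ord_sub_eq_one_of_param M h2 h3 t (X ^ 4 * (X + 16)) (X ^ 2 + 256 * X + 4096)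
    ((X + 32) * (X ^ 2 - 512 * X - 8192)) ?_ ?_ v t0 ?_ hv
  · rw [show (C (1728 : Kbar) : Kbar[X]) = 1728 from map_ofNat C 1728]
    ring
  · have e16 : aeval t (16 : Kbar[X]) = 16 := map_ofNat (aeval t) 16
    have e256 : aeval t (256 : Kbar[X]) = 256 := map_ofNat (aeval t) 256
    have e4096 : aeval t (4096 : Kbar[X]) = 4096 := map_ofNat (aeval t) 4096
    rw [map_mul, map_pow, map_add, map_add, map_add, map_mul, map_pow, aeval_X, e16, e256, e4096,
      ← hj]
    ring
  · simp only [eval_mul, eval_pow, eval_add, eval_X, eval_ofNat]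
    refine mul_ne_zero (pow_ne_zero 4 h0) ?_
    intro h
    exact h16 (by linear_combination h)

set_option synthInstance.maxHeartbeats 200000 in
/-- **D5 at level `9 ∣ M`**, for a Hauptmodul `t` of `Γ₀(9)` normalised by
`J t (t² + 9 t + 27) = ((t + 3)(t³ + 9 t² + 27 t + 3))³`: `FF M / K(t)` is unramified outside
`t = ∞` and the zeros of `t (t² + 9 t + 27)`. -/
theorem ord_sub_eq_one_of_nine_dvd (h9 : 9 ∣ M) (t : FF M)
    (hj : J M * t * (t ^ 2 + 9 * t + 27) = ((t + 3) * (t ^ 3 + 9 * t ^ 2 + 27 * t + 3)) ^ 3)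
    (v : Place Kbar (FF M)) (t0 : Kbar) (h0 : t0 ≠ 0) (h27 : t0 ^ 2 + 9 * t0 + 27 ≠ 0)
    (hv : 0 < v.ord (t - algebraMap Kbar (FF M) t0)) :
    v.ord (t - algebraMap Kbar (FF M) t0) = 1 := by
  have h2 : ModularCurve.nuTwo M = 0 :=
    nuTwo_eq_zero_of_three_dvd (dvd_trans (by norm_num : 3 ∣ 9) h9)
  have h3 : ModularCurve.nuThree M = 0 := nuThree_eq_zero_of_nine_dvd h9
  refine ord_sub_eq_one_of_param M h2 h3 t (X * (X ^ 2 + 9 * X + 27))
    ((X + 3) * (X ^ 3 + 9 * X ^ 2 + 27 * X + 3))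
    (X ^ 6 + 18 * X ^ 5 + 135 * X ^ 4 + 504 * X ^ 3 + 891 * X ^ 2 + 486 * X - 27) ?_ ?_ v t0 ?_ hv
  · rw [show (C (1728 : Kbar) : Kbar[X]) = 1728 from map_ofNat C 1728]
    ring
  · have e3 : aeval t (3 : Kbar[X]) = 3 := map_ofNat (aeval t) 3
    have e9 : aeval t (9 : Kbar[X]) = 9 := map_ofNat (aeval t) 9
    have e27 : aeval t (27 : Kbar[X]) = 27 := map_ofNat (aeval t) 27
    rw [map_mul, map_add, map_add, map_mul, map_pow, aeval_X, e9, e27, map_mul, map_add, map_add,
      map_add, map_add, map_pow, map_mul, map_pow, map_mul, aeval_X, e3, e9, e27, ← hj]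
    ring
  · simp only [eval_mul, eval_pow, eval_add, eval_X, eval_ofNat]
    exact mul_ne_zero h0 h27

end Modular

end

end Fermat.Agent.S18.NoElliptic
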