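import Mathlib
import Fermat.Agent.S18.NoElliptic.Unramified

/-!
# S18, block D5 (d): the level-9 instance in the `q⁻¹`-normalisation

For the Hauptmodul `t = (η(z)/η(9z))³ = q⁻¹ - 3 + …` of `Γ₀(9)` one has
`J t⁹ (t² + 9 t + 27) = ((t + 9)(t³ + 243 t² + 2187 t + 6561))³`
(the instance `ord_sub_eq_one_of_nine_dvd` of `Unramified.lean` is the same statement for the
Fricke transform `27 / t`, i.e. the formula for `j(9z)`).  Here
`H³ - 1728 D = (X⁶ - 486 X⁵ - 24057 X⁴ - 367416 X³ - 2657205 X² - 9565938 X - 14348907)²`.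
-/

set_option autoImplicit false
set_option linter.unusedSectionVars false
set_option linter.unusedVariables false

namespace Fermat.Agent.S18.NoElliptic

open AlgebraicCurve Polynomial Fermat.Agent.S24 Fermat.Agent.S24.BridgeInv
  Fermat.Agent.S24.PlaceAt

noncomputable section

variable (M : ℕ) [NeZero M]

set_option synthInstance.maxHeartbeats 200000 in
/-- **D5 at level `9 ∣ M`**, for the Hauptmodul `t = q⁻¹ + …` of `Γ₀(9)` normalised by
`J t⁹ (t² + 9 t + 27) = ((t + 9)(t³ + 243 t² + 2187 t + 6561))³`: `FF M / K(t)` is unramified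
outside `t = ∞` and the zeros of `t (t² + 9 t + 27)`. -/
theorem ord_sub_eq_one_of_nine_dvd_q (h9 : 9 ∣ M) (t : FF M)
    (hj : J M * t ^ 9 * (t ^ 2 + 9 * t + 27)
      = ((t + 9) * (t ^ 3 + 243 * t ^ 2 + 2187 * t + 6561)) ^ 3)
    (v : Place Kbar (FF M)) (t0 : Kbar) (h0 : t0 ≠ 0) (h27 : t0 ^ 2 + 9 * t0 + 27 ≠ 0)
    (hv : 0 < v.ord (t - algebraMap Kbar (FF M) t0)) :
    v.ord (t - algebraMap Kbar (FF M) t0) = 1 := by
  have h2 : ModularCurve.nuTwo M = 0 :=
    nuTwo_eq_zero_of_three_dvd (dvd_trans (by norm_num : 3 ∣ 9) h9)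
  have h3 : ModularCurve.nuThree M = 0 := nuThree_eq_zero_of_nine_dvd h9
  refine ord_sub_eq_one_of_param M h2 h3 t (X ^ 9 * (X ^ 2 + 9 * X + 27))
    ((X + 9) * (X ^ 3 + 243 * X ^ 2 + 2187 * X + 6561))
    (X ^ 6 - 486 * X ^ 5 - 24057 * X ^ 4 - 367416 * X ^ 3 - 2657205 * X ^ 2 - 9565938 * X
      - 14348907) ?_ ?_ v t0 ?_ hv
  · rw [show (C (1728 : Kbar) : Kbar[X]) = 1728 from map_ofNat C 1728]
    ring
  · have e9 : aeval t (9 : Kbar[X]) = 9 := map_ofNat (aeval t) 9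
    have e27 : aeval t (27 : Kbar[X]) = 27 := map_ofNat (aeval t) 27
    have e243 : aeval t (243 : Kbar[X]) = 243 := map_ofNat (aeval t) 243
    have e2187 : aeval t (2187 : Kbar[X]) = 2187 := map_ofNat (aeval t) 2187
    have e6561 : aeval t (6561 : Kbar[X]) = 6561 := map_ofNat (aeval t) 6561
    have eD : aeval t (X ^ 9 * (X ^ 2 + 9 * X + 27) : Kbar[X]) = t ^ 9 * (t ^ 2 + 9 * t + 27) := by
      rw [map_mul, map_pow, map_add, map_add, map_mul, map_pow, aeval_X, e9, e27]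
    have eH : aeval t ((X + 9) * (X ^ 3 + 243 * X ^ 2 + 2187 * X + 6561) : Kbar[X])
        = (t + 9) * (t ^ 3 + 243 * t ^ 2 + 2187 * t + 6561) := by
      rw [map_mul, map_add, map_add, map_add, map_add, map_mul, map_mul, map_pow, map_pow,
        aeval_X, e9, e243, e2187, e6561]
    rw [eD, eH, ← hj]
    ring
  · simp only [eval_mul, eval_pow, eval_add, eval_X, eval_ofNat]
    exact mul_ne_zero (pow_ne_zero 9 h0) h27

end

end Fermat.Agent.S18.NoElliptic
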