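import Mathlib
import Fermat.Agent.S18.NoElliptic.Level9

/-!
# S18, block D5 (e): transport from `ℚ((q))` to `FF M = modularFunctionFieldBar M`

The Hauptmoduln of block D4 are rational Laurent series `t ∈ modularFunctionFieldFull 4` (resp. `9`)
with an identity `jq * D(t) = H(t)^3` in `ℚ((q))`.  Here we push such a series into
`FF M` (`4 ∣ M`, resp. `9 ∣ M`) along `coeffEmb`, and restate D5 directly for the rational data:
`FF M` is unramified over `K(t)` outside the cusp values.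
-/

set_option autoImplicit false
set_option linter.unusedSectionVars false
set_option linter.unusedVariables false

namespace Fermat.Agent.S18.NoElliptic

open AlgebraicCurve ModularCurve Fermat.Agent.S24 Fermat.Agent.S24.BridgeInv
  Fermat.Agent.S24.PlaceAt

noncomputable section

variable (M : ℕ) [NeZero M]

/-- the element of `FF M` attached to a rational series of `modularFunctionFieldFull M`. -/
def ratT (x : LaurentSeries ℚ) (hx : x ∈ modularFunctionFieldFull M) : FF M :=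
  ratEmb M ⟨x, hx⟩

@[simp] theorem coe_ratT (x : LaurentSeries ℚ) (hx : x ∈ modularFunctionFieldFull M) :
    ((ratT M x hx : FF M) : LaurentSeries Kbar) = coeffEmb Kbar x := rfl

theorem jq_mem_full : jq ∈ modularFunctionFieldFull M := by
  have h := jqd_mem_full M (one_dvd M)
  rwa [qExpand_one_apply] at h

theorem J_eq_ratT : J M = ratT M jq (jq_mem_full M) := by
  apply Subtype.ext
  show coeffEmb Kbar (qExpand ℚ 1 jq) = coeffEmb Kbar jq
  rw [qExpand_one_apply]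

/-- membership at a multiple of the level -/
theorem mem_full_of_dvd {d : ℕ} [NeZero d] (hd : d ∣ M) {x : LaurentSeries ℚ}
    (hx : x ∈ modularFunctionFieldFull d) : x ∈ modularFunctionFieldFull M :=
  full_degeneracy_le hd hx

/-- an identity in the rational field transports to `FF M`. -/
theorem ratEmb_sub (x y : ↥(modularFunctionFieldFull M)) :
    ratEmb M (x - y) = ratEmb M x - ratEmb M y := map_sub _ _ _

/-- **D5 for a rational level-4 Hauptmodul.** -/
theorem ord_sub_eq_one_of_rat_four (h4 : 4 ∣ M) (t4 : LaurentSeries ℚ)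
    (hmem : t4 ∈ modularFunctionFieldFull 4)
    (hj : jq * t4 ^ 4 * (t4 + 16) = (t4 ^ 2 + 256 * t4 + 4096) ^ 3)
    (v : Place Kbar (FF M)) (t0 : Kbar) (h0 : t0 ≠ 0) (h16 : t0 ≠ -16)
    (hv : 0 < v.ord (ratT M t4 (mem_full_of_dvd M h4 hmem) - algebraMap Kbar (FF M) t0)) :
    v.ord (ratT M t4 (mem_full_of_dvd M h4 hmem) - algebraMap Kbar (FF M) t0) = 1 := by
  refine ord_sub_eq_one_of_four_dvd M h4 _ ?_ v t0 h0 h16 hv
  rw [J_eq_ratT]
  have hx := mem_full_of_dvd M h4 hmem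
  have e : (⟨jq, jq_mem_full M⟩ : ↥(modularFunctionFieldFull M)) * ⟨t4, hx⟩ ^ 4
      * (⟨t4, hx⟩ + 16) = (⟨t4, hx⟩ ^ 2 + 256 * ⟨t4, hx⟩ + 4096) ^ 3 := Subtype.ext hj
  have e' := congrArg (ratEmb M) e
  simp only [map_mul, map_pow, map_add, map_ofNat] at e'
  exact e'

/-- **D5 for a rational level-9 Hauptmodul** (`t = q⁻¹ + …`). -/
theorem ord_sub_eq_one_of_rat_nine (h9 : 9 ∣ M) (t9 : LaurentSeries ℚ)
    (hmem : t9 ∈ modularFunctionFieldFull 9)
    (hj : jq * t9 ^ 9 * (t9 ^ 2 + 9 * t9 + 27)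
      = ((t9 + 9) * (t9 ^ 3 + 243 * t9 ^ 2 + 2187 * t9 + 6561)) ^ 3)
    (v : Place Kbar (FF M)) (t0 : Kbar) (h0 : t0 ≠ 0) (h27 : t0 ^ 2 + 9 * t0 + 27 ≠ 0)
    (hv : 0 < v.ord (ratT M t9 (mem_full_of_dvd M h9 hmem) - algebraMap Kbar (FF M) t0)) :
    v.ord (ratT M t9 (mem_full_of_dvd M h9 hmem) - algebraMap Kbar (FF M) t0) = 1 := by
  refine ord_sub_eq_one_of_nine_dvd_q M h9 _ ?_ v t0 h0 h27 hv
  rw [J_eq_ratT]
  have hx := mem_full_of_dvd M h9 hmem
  have e : (⟨jq, jq_mem_full M⟩ : ↥(modularFunctionFieldFull M)) * ⟨t9, hx⟩ ^ 9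
      * (⟨t9, hx⟩ ^ 2 + 9 * ⟨t9, hx⟩ + 27)
      = ((⟨t9, hx⟩ + 9) * (⟨t9, hx⟩ ^ 3 + 243 * ⟨t9, hx⟩ ^ 2 + 2187 * ⟨t9, hx⟩ + 6561)) ^ 3 :=
    Subtype.ext hj
  have e' := congrArg (ratEmb M) e
  simp only [map_mul, map_pow, map_add, map_ofNat] at e'
  exact e'

end

end Fermat.Agent.S18.NoElliptic
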