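import Mathlib
import Fermat.Agent.S24.CuspFibre
import Fermat.Agent.S24.CuspCount
import Fermat.Agent.S18.NoElliptic.Unramified
import Fermat.Agent.S18.Haupt.Level4D5

/-!
# S18, block D5c: ramification at the cusps divides the level

* `ord_J_inv_dvd`: every place `v` of `FF M` with `ord_v J < 0` has `ord_v (J⁻¹) = w`, `w ∣ M`
  (`w` = size of a `⟨T⟩`-orbit on `SL(2,ℤ) ⧸ Γ₀(M)` = width of the cusp); per-place form of the
  S24 fibre model at infinity.
* generic: order of a polynomial in `t` at a pole of `t` (`ord_aeval_of_neg`), order of `J` at the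
  zeros of the denominator and at the poles of `t` when `J * D(t) = Rn(t)`.
* level `4 ∣ M`, `t = t4Bar M h4`: `0 < ord_v t → 4 * ord_v t ∣ M`,
  `0 < ord_v (t + 16) → ord_v (t + 16) ∣ M`, `ord_v t < 0 → -ord_v t ∣ M`.
  In particular all ramification indices of `FF M / K(t)` over the cusp values `0, -16, ∞` divide
  `M` (tameness at every prime not dividing `M`; hypothesis of the Abhyankar step of block CUSP).
-/

set_option autoImplicit false
set_option linter.unusedSectionVars false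
set_option linter.unusedVariables false

namespace Fermat.Agent.S18.NoElliptic

open scoped MatrixGroups
open AlgebraicCurve Polynomial IntermediateField UpperHalfPlane CongruenceSubgroup ModularGroup
open Fermat.Agent.S20 Fermat.Agent.S24 Fermat.Agent.S24.PsiLe Fermat.Agent.S24.BridgeInv
  Fermat.Agent.S24.PlaceAt Fermat.Agent.S24.FiniteFibres

noncomputable section

/-! ### the fibre over `J = ∞`, place by place -/

section Inf

variable (N : ℕ) [NeZero N]

/-- **per-place form of the cusp fibre**: a pole `v` of `J` has `ord_v (J⁻¹)` equal to the size of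
a `⟨T⟩`-orbit on the cosets of `Γ₀(N)`. -/
theorem exists_orbit_ord_J_inv (v : Place Kbar (FF N)) (hv : 0 < v.ord (J N)⁻¹) :
    ∃ c : Q N, v.ord (J N)⁻¹
      = Nat.card (MulAction.orbit (Subgroup.zpowers (T : SL(2, ℤ))) c) := by
  classical
  have hΦ := BridgePhi.isBridge_PhiBar N
  have hJ := transcendental_J N
  have hy : Transcendental Kbar (J N)⁻¹ := FFPrin.transcendental_inv hJ
  have hyJ : Kbar⟮(J N)⁻¹⟯ = Kbar⟮J N⟯ := Exhaust.adjoin_inv_eq (J N)
  set M := CuspFibre.fibreModelInf hΦ with hM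
  have hfin := FFGenus.zeros_finite' (J N) hJ (J N)⁻¹ hy
  have hsum := FFGenus.sum_ord_zeros' (J N) hJ (J N)⁻¹ hy
  have hZ : ∀ v, v ∈ hfin.toFinset ↔ 0 < v.ord (J N)⁻¹ := fun v => by
    rw [Set.Finite.mem_toFinset]; rfl
  have hn : Module.finrank Kbar⟮(J N)⁻¹⟯ (FF N) = Module.finrank Kbar⟮J N⟯ (FF N) := by
    rw [hyJ]
  have hcard : Fintype.card (Q N) ≤ Module.finrank Kbar⟮(J N)⁻¹⟯ (FF N) := by
    rw [hn, ← Nat.card_eq_fintype_card]
    have h1 : Nat.card (Q N) = ModularCurve.dedekindPsi N := card_quotient_Gamma0 N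
    rw [h1]
    exact hΦ.psi_le_finrank
  have : Nonempty (Q N) := ⟨QuotientGroup.mk 1⟩
  have hmain := M.main (Module.finrank Kbar⟮(J N)⁻¹⟯ (FF N)) hcard hfin.toFinset hZ hsum
    (fun v hv S hS hvS => FFGenus.happrox (J N) hJ (J N)⁻¹ hy v ((hZ v).mp hv) S
      (fun w hw => (hZ w).mp (hS hw)) hvS)
    (fun f hf hfint v hv => by
      have hyv : (J N)⁻¹ ∈ v.toValuationSubring :=
        (mem_iff_ord_nonneg v M.y_ne).mpr ((hZ v).mp hv).le
      exact (mem_iff_ord_nonneg v hf).mp (Exhaust.mem_of_isIntegral v hyv hfint))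
  obtain ⟨hex, -, hord, -, -⟩ := hmain
  obtain ⟨c, hc⟩ := hex v ((hZ v).mpr hv)
  exact ⟨c, by rw [hc]; exact hord c⟩

/-- **the ramification index at a cusp divides the level**. -/
theorem ord_J_inv_dvd (v : Place Kbar (FF N)) (hv : 0 < v.ord (J N)⁻¹) :
    v.ord (J N)⁻¹ ∣ (N : ℤ) := by
  obtain ⟨c, hc⟩ := exists_orbit_ord_J_inv N v hv
  rw [hc]
  exact_mod_cast CuspFibre.card_orbit_T_dvd N c

/-- the same in terms of the pole order of `J`. -/
theorem ord_J_dvd_of_neg (v : Place Kbar (FF N)) (hv : v.ord (J N) < 0) :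
    v.ord (J N) ∣ (N : ℤ) := by
  have h1 : v.ord (J N)⁻¹ = -v.ord (J N) := Place.ord_inv v _
  have h2 := ord_J_inv_dvd N v (by rw [h1]; omega)
  rw [h1] at h2
  exact (neg_dvd).mp h2

end Inf

/-! ### generic: orders of polynomials in `t` at the poles of `t` -/

section Generic

variable {K F : Type*} [Field K] [Field F] [Algebra K F]

/-- at a pole of `t`, `ord_v P(t) = deg P * ord_v t`. -/
theorem ord_aeval_of_neg (v : Place K F) (t : F) (hv : v.ord t < 0) (P : K[X]) (hP : P ≠ 0) :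
    aeval t P ≠ 0 ∧ v.ord (aeval t P) = P.natDegree * v.ord t := by
  have ht0 : t ≠ 0 := by
    rintro rfl
    rw [Place.ord_zero] at hv
    exact lt_irrefl _ hv
  have hs : 0 < v.ord (t⁻¹ - algebraMap K F 0) := by
    rw [map_zero, sub_zero, Place.ord_inv]
    omega
  have hrev : P.reverse ≠ 0 := fun h => hP (reverse_eq_zero.mp h)
  obtain ⟨h1, h2⟩ := ord_aeval_of_pos v t⁻¹ 0 hs P.reverse hrev
  have hmult : P.reverse.rootMultiplicity 0 = 0 := by
    apply rootMultiplicity_eq_zero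
    rw [IsRoot.def, ← coeff_zero_eq_eval_zero, coeff_zero_reverse]
    exact leadingCoeff_ne_zero.mpr hP
  rw [hmult, Nat.cast_zero, zero_mul] at h2
  have hkey : aeval t P = aeval t⁻¹ P.reverse * t ^ P.natDegree := by
    have : Invertible t := invertibleOfNonzero ht0
    have := eval₂_reverse_mul_pow (algebraMap K F) t P
    rw [invOf_eq_inv] at this
    exact this.symm
  refine ⟨?_, ?_⟩
  · rw [hkey]
    exact mul_ne_zero h1 (pow_ne_zero _ ht0)
  · rw [hkey, v.ord_mul h1 (pow_ne_zero _ ht0), h2, zero_add,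
      (isOrdFun_placeOrd v).pow t ht0]

/-- `J * D(t) = Rn(t)`: the order of `J` at a zero `t0` of the denominator which is not a zero of
the numerator. -/
theorem ord_J_of_pos (v : Place K F) (t J : F) (t0 : K) (D Rn : K[X]) (hJ : J ≠ 0)
    (hrel : J * aeval t D = aeval t Rn) (hRn : Rn.eval t0 ≠ 0) (hD : D ≠ 0)
    (hv : 0 < v.ord (t - algebraMap K F t0)) :
    v.ord J = -((D.rootMultiplicity t0 : ℤ) * v.ord (t - algebraMap K F t0)) := by
  have hRn0 : Rn ≠ 0 := by
    rintro rfl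
    simp at hRn
  obtain ⟨hD1, hD2⟩ := ord_aeval_of_pos v t t0 hv D hD
  obtain ⟨hR1, hR2⟩ := ord_aeval_of_pos v t t0 hv Rn hRn0
  rw [rootMultiplicity_eq_zero hRn, Nat.cast_zero, zero_mul] at hR2
  have h := congrArg v.ord hrel
  rw [v.ord_mul hJ hD1, hD2, hR2] at h
  omega

/-- `J * D(t) = Rn(t)`: the order of `J` at a pole of `t`. -/
theorem ord_J_of_neg (v : Place K F) (t J : F) (D Rn : K[X]) (hJ : J ≠ 0)
    (hrel : J * aeval t D = aeval t Rn) (hRn : Rn ≠ 0) (hD : D ≠ 0) (hv : v.ord t < 0) :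
    v.ord J = ((Rn.natDegree : ℤ) - D.natDegree) * v.ord t := by
  obtain ⟨hD1, hD2⟩ := ord_aeval_of_neg v t hv D hD
  obtain ⟨hR1, hR2⟩ := ord_aeval_of_neg v t hv Rn hRn
  have h := congrArg v.ord hrel
  rw [v.ord_mul hJ hD1, hD2, hR2] at h
  linarith

end Generic

/-! ### level `4 ∣ M` -/

section Level4

open Fermat.Agent.S18.Haupt

variable (M : ℕ) [NeZero M] (h4 : 4 ∣ M)

set_option synthInstance.maxHeartbeats 200000 in
/-- the polynomial identity `J * D(t) = Rn(t)` with `D = X⁴ (X + 16)`, `Rn = (X² + 256 X + 4096)³`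
over `K = ℚ̄`. -/
theorem rel_poly_t4Bar :
    J M * aeval (t4Bar M h4) (X ^ 4 * (X + 16) : Kbar[X])
      = aeval (t4Bar M h4) ((X ^ 2 + 256 * X + 4096) ^ 3 : Kbar[X]) := by
  have e1 : aeval (t4Bar M h4) (X ^ 4 * (X + 16) : Kbar[X])
      = t4Bar M h4 ^ 4 * (t4Bar M h4 + 16) := by
    simp only [map_pow, map_add, map_mul, aeval_X, map_ofNat]
  have e2 : aeval (t4Bar M h4) ((X ^ 2 + 256 * X + 4096) ^ 3 : Kbar[X])
      = (t4Bar M h4 ^ 2 + 256 * t4Bar M h4 + 4096) ^ 3 := by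
    simp only [map_pow, map_add, map_mul, aeval_X, map_ofNat]
  rw [e1, e2, ← mul_assoc]
  exact J_mul_t4Bar M h4

theorem J_ne_zero' : J M ≠ 0 := CuspFibre.J_ne_zero (BridgePhi.isBridge_PhiBar M)

theorem Dpoly_ne_zero : (X ^ 4 * (X + 16) : Kbar[X]) ≠ 0 := by
  intro h
  have := congrArg (eval (1 : Kbar)) h
  simp only [eval_mul, eval_pow, eval_add, eval_X, eval_ofNat, eval_zero] at this
  norm_num at this

theorem Rpoly_ne_zero : ((X ^ 2 + 256 * X + 4096) ^ 3 : Kbar[X]) ≠ 0 := by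
  intro h
  have := congrArg (eval (0 : Kbar)) h
  simp only [eval_mul, eval_pow, eval_add, eval_X, eval_ofNat, eval_zero] at this
  norm_num at this

theorem natDegree_Dpoly : (X ^ 4 * (X + 16) : Kbar[X]).natDegree = 5 := by compute_degree!

theorem natDegree_Rpoly : ((X ^ 2 + 256 * X + 4096) ^ 3 : Kbar[X]).natDegree = 6 := by
  compute_degree!

/-- at a pole of `t` the pole order divides `M` (cusp `∞` of the `t`-line). -/
theorem ord_t4Bar_dvd_of_neg (v : Place Kbar (FF M)) (hv : v.ord (t4Bar M h4) < 0) :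
    v.ord (t4Bar M h4) ∣ (M : ℤ) := by
  have h := ord_J_of_neg v (t4Bar M h4) (J M) _ _ (J_ne_zero' M) (rel_poly_t4Bar M h4)
    Rpoly_ne_zero Dpoly_ne_zero hv
  rw [natDegree_Dpoly, natDegree_Rpoly] at h
  have h' : v.ord (J M) = v.ord (t4Bar M h4) := by rw [h]; norm_num
  rw [← h']
  exact ord_J_dvd_of_neg M v (by rw [h']; exact hv)

theorem rootMultiplicity_zero_Dpoly : (X ^ 4 * (X + 16) : Kbar[X]).rootMultiplicity 0 = 4 := by
  rw [rootMultiplicity_mul Dpoly_ne_zero]
  have h1 : (X ^ 4 : Kbar[X]) = (X - C 0) ^ 4 := by rw [C_0, sub_zero]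
  rw [h1, rootMultiplicity_X_sub_C_pow, rootMultiplicity_eq_zero, add_zero]
  simp only [IsRoot.def, eval_add, eval_X, eval_ofNat]
  norm_num

theorem rootMultiplicity_neg_Dpoly :
    (X ^ 4 * (X + 16) : Kbar[X]).rootMultiplicity (-16) = 1 := by
  rw [rootMultiplicity_mul Dpoly_ne_zero]
  have h1 : (X + 16 : Kbar[X]) = X - C (-16) := by
    rw [map_neg, sub_neg_eq_add, show (C (16 : Kbar) : Kbar[X]) = 16 from map_ofNat C 16]
  rw [h1, rootMultiplicity_X_sub_C_self, rootMultiplicity_eq_zero, zero_add]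
  simp only [IsRoot.def, eval_pow, eval_X]
  norm_num

/-- at a zero of `t` (cusp value `0`): `4 * ord_v t ∣ M`. -/
theorem four_mul_ord_t4Bar_dvd_of_pos (v : Place Kbar (FF M)) (hv : 0 < v.ord (t4Bar M h4)) :
    4 * v.ord (t4Bar M h4) ∣ (M : ℤ) := by
  have hv' : 0 < v.ord (t4Bar M h4 - algebraMap Kbar (FF M) 0) := by
    rwa [map_zero, sub_zero]
  have h := ord_J_of_pos v (t4Bar M h4) (J M) 0 _ _ (J_ne_zero' M) (rel_poly_t4Bar M h4)
    (by simp only [eval_pow, eval_add, eval_mul, eval_X, eval_ofNat]; norm_num)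
    Dpoly_ne_zero hv'
  rw [rootMultiplicity_zero_Dpoly, map_zero, sub_zero] at h
  have hneg : v.ord (J M) < 0 := by rw [h]; push_cast; omega
  have hd := ord_J_dvd_of_neg M v hneg
  rw [h] at hd
  exact_mod_cast (neg_dvd).mp hd

/-- at a zero of `t` the ramification index divides `M`. -/
theorem ord_t4Bar_dvd_of_pos (v : Place Kbar (FF M)) (hv : 0 < v.ord (t4Bar M h4)) :
    v.ord (t4Bar M h4) ∣ (M : ℤ) :=
  dvd_trans (Dvd.intro_left 4 rfl) (four_mul_ord_t4Bar_dvd_of_pos M h4 v hv)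

/-- at a zero of `t + 16` (cusp value `-16`): `ord_v (t + 16) ∣ M`. -/
theorem ord_t4Bar_add_dvd_of_pos (v : Place Kbar (FF M))
    (hv : 0 < v.ord (t4Bar M h4 + 16)) : v.ord (t4Bar M h4 + 16) ∣ (M : ℤ) := by
  have e : t4Bar M h4 - algebraMap Kbar (FF M) (-16) = t4Bar M h4 + 16 := by
    rw [map_neg, sub_neg_eq_add, map_ofNat]
  have hv' : 0 < v.ord (t4Bar M h4 - algebraMap Kbar (FF M) (-16)) := by rwa [e]
  have h := ord_J_of_pos v (t4Bar M h4) (J M) (-16) _ _ (J_ne_zero' M) (rel_poly_t4Bar M h4)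
    (by simp only [eval_pow, eval_add, eval_mul, eval_X, eval_ofNat]; norm_num)
    Dpoly_ne_zero hv'
  rw [rootMultiplicity_neg_Dpoly, e] at h
  have hneg : v.ord (J M) < 0 := by rw [h]; push_cast; omega
  have hd := ord_J_dvd_of_neg M v hneg
  rw [h] at hd
  have h2 := (neg_dvd).mp hd
  simpa using h2

end Level4

end

end Fermat.Agent.S18.NoElliptic
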