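import Mathlib
import Fermat.Agent.S18.NoElliptic.CuspOrd
import Fermat.Agent.S18.NoElliptic.Level9
import Fermat.Agent.S18.Haupt.DegreeOverT
import Fermat.Agent.S18.Core.ConstOfIntegral

/-!
# S18, block D5 at level `9 ∣ M` (for `ℓ = 2`), parametrised by the Hauptmodul data

Input (block D4-9): a rational Laurent series `t9` with
* `hmem : t9 ∈ modularFunctionFieldFull 9`,
* `hj : jq * (t9⁹ (t9² + 9 t9 + 27)) = (t9 + 9)³ (t9³ + 243 t9² + 2187 t9 + 6561)³`,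
* `hpole : t9.coeff (-1) ≠ 0`.

Output, for `9 ∣ M`, `t = t9Bar : FF M`:
* `J_mul_t9Bar`, `ord_t9Bar_sub_eq_one` (D5: `FF M / K(t)` unramified outside the cusp values),
* `transcendental_t9Bar`, `psi_eq_twelve_mul : ψ(M) = 12 * [FF M : K(t)]`,
* ramification at the cusp values divides `M`: `ord_t9Bar_dvd_of_neg`,
  `nine_mul_ord_t9Bar_dvd_of_pos`, `ord_t9Bar_sub_root_dvd_of_pos`.
Also the coprimality of numerator and denominator over any field with `3 ≠ 0`.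
-/

set_option autoImplicit false
set_option linter.unusedSectionVars false
set_option linter.unusedVariables false

namespace Fermat.Agent.S18.NoElliptic.Level9G

open AlgebraicCurve Polynomial IntermediateField ModularCurve
open Fermat.Agent.S24 Fermat.Agent.S24.BridgeInv Fermat.Agent.S24.PlaceAt
  Fermat.Agent.S24.FiniteFibres Fermat.Agent.S18.NoElliptic
  Fermat.Agent.S18.Haupt.DegreeOverT

noncomputable section

/-! ### the polynomials -/

section Polys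

variable (k : Type*) [Field k]

/-- `H = (X + 9)(X³ + 243 X² + 2187 X + 6561)`. -/
def Hp : k[X] := (X + 9) * (X ^ 3 + 243 * X ^ 2 + 2187 * X + 6561)

/-- `Q = X² + 9 X + 27`. -/
def Qp : k[X] := X ^ 2 + 9 * X + 27

/-- the numerator `H³`. -/
def Rn : k[X] := Hp k ^ 3

/-- the denominator `X⁹ (X² + 9 X + 27)`. -/
def Dp : k[X] := X ^ 9 * Qp k

variable {k}

theorem isCoprime_Hp_X (h3 : (3 : k) ≠ 0) : IsCoprime (Hp k) X := by
  have hc : (59049 : k) ≠ 0 := by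
    have : (59049 : k) = 3 ^ 10 := by norm_num
    rw [this]
    exact pow_ne_zero _ h3
  refine ⟨C (59049 : k)⁻¹, -(C (59049 : k)⁻¹ * (X ^ 3 + 252 * X ^ 2 + 4374 * X + 26244)), ?_⟩
  have hC : (C (59049 : k)⁻¹ : k[X]) * 59049 = 1 := by
    rw [show (59049 : k[X]) = C (59049 : k) from (map_ofNat C 59049).symm, ← C_mul,
      inv_mul_cancel₀ hc, C_1]
  rw [Hp]
  linear_combination hC

theorem isCoprime_Hp_Qp (h3 : (3 : k) ≠ 0) : IsCoprime (Hp k) (Qp k) := by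
  have hc : (2187 : k) ≠ 0 := by
    have : (2187 : k) = 3 ^ 7 := by norm_num
    rw [this]
    exact pow_ne_zero _ h3
  refine ⟨C (2187 : k)⁻¹ * (-6 - X),
    C (2187 : k)⁻¹ * (13203 + 3618 * X + 249 * X ^ 2 + X ^ 3), ?_⟩
  have hC : (C (2187 : k)⁻¹ : k[X]) * 2187 = 1 := by
    rw [show (2187 : k[X]) = C (2187 : k) from (map_ofNat C 2187).symm, ← C_mul,
      inv_mul_cancel₀ hc, C_1]
  rw [Hp, Qp]
  linear_combination hC

theorem isCoprime_Rn_Dp (h3 : (3 : k) ≠ 0) : IsCoprime (Rn k) (Dp k) := by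
  rw [Rn, Dp]
  exact IsCoprime.pow_left
    (IsCoprime.mul_right (isCoprime_Hp_X h3).pow_right (isCoprime_Hp_Qp h3))

theorem natDegree_Rn : (Rn k).natDegree = 12 := by
  rw [Rn, Hp]
  compute_degree!

theorem natDegree_Dp : (Dp k).natDegree = 11 := by
  rw [Dp, Qp]
  compute_degree!

theorem Dp_ne_zero : Dp k ≠ 0 := by
  intro h
  have := natDegree_Dp (k := k)
  rw [h, natDegree_zero] at this
  omega

theorem Rn_ne_zero : Rn k ≠ 0 := by
  intro h
  have := natDegree_Rn (k := k)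
  rw [h, natDegree_zero] at this
  omega

theorem max_deg : max (Rn k).natDegree (Dp k).natDegree = 12 := by
  rw [natDegree_Rn, natDegree_Dp]
  rfl

theorem aeval_Rn {F : Type*} [Field F] [Algebra k F] (t : F) :
    aeval t (Rn k) = ((t + 9) * (t ^ 3 + 243 * t ^ 2 + 2187 * t + 6561)) ^ 3 := by
  rw [Rn, Hp]
  simp only [map_pow, map_add, map_mul, aeval_X, map_ofNat]

theorem aeval_Dp {F : Type*} [Field F] [Algebra k F] (t : F) :
    aeval t (Dp k) = t ^ 9 * (t ^ 2 + 9 * t + 27) := by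
  rw [Dp, Qp]
  simp only [map_pow, map_add, map_mul, aeval_X, map_ofNat]

theorem eval_Rn (a : k) :
    (Rn k).eval a = ((a + 9) * (a ^ 3 + 243 * a ^ 2 + 2187 * a + 6561)) ^ 3 := by
  rw [Rn, Hp]
  simp only [eval_pow, eval_add, eval_mul, eval_X, eval_ofNat]

theorem eval_Dp (a : k) : (Dp k).eval a = a ^ 9 * (a ^ 2 + 9 * a + 27) := by
  rw [Dp, Qp]
  simp only [eval_pow, eval_add, eval_mul, eval_X, eval_ofNat]

/-- numerator and denominator have no common root. -/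
theorem eval_Rn_ne_zero_of_eval_Dp (h3 : (3 : k) ≠ 0) {a : k} (ha : (Dp k).eval a = 0) :
    (Rn k).eval a ≠ 0 := by
  intro hR
  obtain ⟨u, w, huw⟩ := isCoprime_Rn_Dp (k := k) h3
  have := congrArg (eval a) huw
  rw [eval_add, eval_mul, eval_mul, hR, ha, mul_zero, mul_zero, add_zero, eval_one] at this
  exact zero_ne_one this

end Polys

/-! ### the Hauptmodul in `FF M` -/

section Bar

variable (M : ℕ) [NeZero M] (h9 : 9 ∣ M) (t9 : LaurentSeries ℚ)
  (hmem : t9 ∈ modularFunctionFieldFull 9)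

/-- the Hauptmodul of `Γ₀(9)` as an element of `FF M`, `9 ∣ M`. -/
def t9Bar : FF M := ratT M t9 (mem_full_of_dvd M h9 hmem)

@[simp] theorem coe_t9Bar :
    ((t9Bar M h9 t9 hmem : FF M) : LaurentSeries Kbar) = coeffEmb Kbar t9 := rfl

variable (hj : jq * (t9 ^ 9 * (t9 ^ 2 + 9 * t9 + 27))
    = (t9 + 9) ^ 3 * (t9 ^ 3 + 243 * t9 ^ 2 + 2187 * t9 + 6561) ^ 3)

include hj in
/-- `J t⁹ (t² + 9 t + 27) = ((t + 9)(t³ + 243 t² + 2187 t + 6561))³` in `FF M`. -/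
theorem J_mul_t9Bar :
    J M * t9Bar M h9 t9 hmem ^ 9 * (t9Bar M h9 t9 hmem ^ 2 + 9 * t9Bar M h9 t9 hmem + 27)
      = ((t9Bar M h9 t9 hmem + 9) * (t9Bar M h9 t9 hmem ^ 3 + 243 * t9Bar M h9 t9 hmem ^ 2
          + 2187 * t9Bar M h9 t9 hmem + 6561)) ^ 3 := by
  rw [J_eq_ratT]
  have hx := mem_full_of_dvd M h9 hmem
  have hj' : jq * t9 ^ 9 * (t9 ^ 2 + 9 * t9 + 27)
      = ((t9 + 9) * (t9 ^ 3 + 243 * t9 ^ 2 + 2187 * t9 + 6561)) ^ 3 := by
    rw [mul_assoc, hj, mul_pow]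
  have e : (⟨jq, jq_mem_full M⟩ : ↥(modularFunctionFieldFull M)) * ⟨t9, hx⟩ ^ 9
      * (⟨t9, hx⟩ ^ 2 + 9 * ⟨t9, hx⟩ + 27)
      = ((⟨t9, hx⟩ + 9) * (⟨t9, hx⟩ ^ 3 + 243 * ⟨t9, hx⟩ ^ 2 + 2187 * ⟨t9, hx⟩ + 6561)) ^ 3 :=
    Subtype.ext hj'
  have e' := congrArg (ratEmb M) e
  simp only [map_mul, map_pow, map_add, map_ofNat] at e'
  exact e'

include hj in
/-- **D5 at level `9 ∣ M`**: `FF M / K(t)` is unramified outside `t = ∞`, `0` and the roots of
`t² + 9 t + 27`. -/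
theorem ord_t9Bar_sub_eq_one (v : Place Kbar (FF M)) (t0 : Kbar) (h0 : t0 ≠ 0)
    (h27 : t0 ^ 2 + 9 * t0 + 27 ≠ 0)
    (hv : 0 < v.ord (t9Bar M h9 t9 hmem - algebraMap Kbar (FF M) t0)) :
    v.ord (t9Bar M h9 t9 hmem - algebraMap Kbar (FF M) t0) = 1 :=
  ord_sub_eq_one_of_nine_dvd_q M h9 (t9Bar M h9 t9 hmem) (J_mul_t9Bar M h9 t9 hmem hj) v t0 h0
    h27 hv

include hj in
theorem rel_t9Bar :
    J M * aeval (t9Bar M h9 t9 hmem) (Dp Kbar) = aeval (t9Bar M h9 t9 hmem) (Rn Kbar) := by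
  rw [aeval_Dp, aeval_Rn, ← mul_assoc]
  exact J_mul_t9Bar M h9 t9 hmem hj

variable (hpole : t9.coeff (-1) ≠ 0)

include hpole in
theorem transcendental_t9Bar : Transcendental Kbar (t9Bar M h9 t9 hmem) := by
  intro halg
  have h1 : IsAlgebraic Kbar ((t9Bar M h9 t9 hmem : FF M) : LaurentSeries Kbar) :=
    halg.algebraMap (A := LaurentSeries Kbar)
  obtain ⟨c, hc⟩ := Fermat.Agent.S18.Core.ConstOfIntegral.exists_eq_C_of_isAlgebraic h1
  have h2 := congrArg (fun x : LaurentSeries Kbar => x.coeff (-1)) hc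
  simp only [coe_t9Bar, coeffEmb_coeff] at h2
  rw [HahnSeries.C_apply, HahnSeries.coeff_single_of_ne (by norm_num)] at h2
  exact hpole ((map_eq_zero_iff _ (algebraMap ℚ Kbar).injective).mp h2)

include hj hpole in
/-- `K(J) ≤ K(t)` inside `FF M`. -/
theorem adjoin_J_le_adjoin_t9Bar : Kbar⟮J M⟯ ≤ Kbar⟮t9Bar M h9 t9 hmem⟯ :=
  adjoin_le_adjoin (t9Bar M h9 t9 hmem) (J M) (transcendental_t9Bar M h9 t9 hmem hpole)
    (Rn Kbar) (Dp Kbar) Dp_ne_zero (rel_t9Bar M h9 t9 hmem hj)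

include hj hpole in
/-- **`[FF M : K(J)] = 12 * [FF M : K(t)]`**. -/
theorem finrank_J_eq_twelve_mul :
    Module.finrank Kbar⟮J M⟯ (FF M)
      = 12 * Module.finrank Kbar⟮t9Bar M h9 t9 hmem⟯ (FF M) := by
  rw [finrank_eq_mul (t9Bar M h9 t9 hmem) (J M) (transcendental_t9Bar M h9 t9 hmem hpole)
    (Rn Kbar) (Dp Kbar) (isCoprime_Rn_Dp three_ne_zero) Dp_ne_zero
    (rel_t9Bar M h9 t9 hmem hj), max_deg]

include hj hpole in
/-- **`ψ(M) = 12 * [FF M : K(t)]`**. -/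
theorem psi_eq_twelve_mul :
    dedekindPsi M = 12 * Module.finrank Kbar⟮t9Bar M h9 t9 hmem⟯ (FF M) := by
  rw [← finrank_J_eq_twelve_mul M h9 t9 hmem hj hpole, T0 M]

include hj hpole in
/-- `FF M` is finite over `K(t)`. -/
theorem finiteDimensional_t9Bar : FiniteDimensional Kbar⟮t9Bar M h9 t9 hmem⟯ (FF M) := by
  apply FiniteDimensional.of_finrank_pos
  have h := psi_eq_twelve_mul M h9 t9 hmem hj hpole
  have hpos : 0 < dedekindPsi M := by
    rw [← T0 M]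
    exact Module.finrank_pos
  omega

/-! ### ramification at the cusp values divides `M` -/

include hj in
/-- at a pole of `t` (cusp `∞` of the `t`-line) the pole order divides `M`. -/
theorem ord_t9Bar_dvd_of_neg (v : Place Kbar (FF M)) (hv : v.ord (t9Bar M h9 t9 hmem) < 0) :
    v.ord (t9Bar M h9 t9 hmem) ∣ (M : ℤ) := by
  have h := ord_J_of_neg v (t9Bar M h9 t9 hmem) (J M) _ _ (J_ne_zero' M)
    (rel_t9Bar M h9 t9 hmem hj) Rn_ne_zero Dp_ne_zero hv
  rw [natDegree_Dp, natDegree_Rn] at h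
  have h' : v.ord (J M) = v.ord (t9Bar M h9 t9 hmem) := by rw [h]; norm_num
  rw [← h']
  exact ord_J_dvd_of_neg M v (by rw [h']; exact hv)

theorem Qp_eval_zero_ne : (Qp Kbar).eval 0 ≠ 0 := by
  rw [Qp]
  simp only [eval_pow, eval_add, eval_mul, eval_X, eval_ofNat]
  norm_num

theorem Qp_ne_zero : Qp Kbar ≠ 0 := by
  intro h
  have := Qp_eval_zero_ne
  rw [h, eval_zero] at this
  exact this rfl

theorem rootMultiplicity_zero_Dp : (Dp Kbar).rootMultiplicity 0 = 9 := by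
  rw [Dp, rootMultiplicity_mul (by rw [← Dp]; exact Dp_ne_zero)]
  have h1 : (X ^ 9 : Kbar[X]) = (X - C 0) ^ 9 := by rw [C_0, sub_zero]
  rw [h1, rootMultiplicity_X_sub_C_pow, rootMultiplicity_eq_zero Qp_eval_zero_ne, add_zero]

include hj in
/-- at a zero of `t` (cusp value `0`): `9 * ord_v t ∣ M`. -/
theorem nine_mul_ord_t9Bar_dvd_of_pos (v : Place Kbar (FF M))
    (hv : 0 < v.ord (t9Bar M h9 t9 hmem)) : 9 * v.ord (t9Bar M h9 t9 hmem) ∣ (M : ℤ) := by
  have hv' : 0 < v.ord (t9Bar M h9 t9 hmem - algebraMap Kbar (FF M) 0) := by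
    rwa [map_zero, sub_zero]
  have h := ord_J_of_pos v (t9Bar M h9 t9 hmem) (J M) 0 _ _ (J_ne_zero' M)
    (rel_t9Bar M h9 t9 hmem hj)
    (by rw [eval_Rn]; norm_num)
    Dp_ne_zero hv'
  rw [rootMultiplicity_zero_Dp, map_zero, sub_zero] at h
  have hneg : v.ord (J M) < 0 := by rw [h]; push_cast; omega
  have hd := ord_J_dvd_of_neg M v hneg
  rw [h] at hd
  exact_mod_cast (neg_dvd).mp hd

include hj in
theorem ord_t9Bar_dvd_of_pos (v : Place Kbar (FF M)) (hv : 0 < v.ord (t9Bar M h9 t9 hmem)) :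
    v.ord (t9Bar M h9 t9 hmem) ∣ (M : ℤ) :=
  dvd_trans (Dvd.intro_left 9 rfl) (nine_mul_ord_t9Bar_dvd_of_pos M h9 t9 hmem hj v hv)

/-- a root `ρ` of `X² + 9 X + 27` is a simple root of the denominator. -/
theorem rootMultiplicity_root_Dp (ρ : Kbar) (hρ : ρ ^ 2 + 9 * ρ + 27 = 0) :
    (Dp Kbar).rootMultiplicity ρ = 1 := by
  have hρ0 : ρ ≠ 0 := by
    rintro rfl
    norm_num at hρ
  have hfac : Qp Kbar = (X - C ρ) * (X - C (-9 - ρ)) := by
    rw [Qp, map_sub, map_neg, show (C (9 : Kbar) : Kbar[X]) = 9 from map_ofNat C 9]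
    have h27 : (27 : Kbar[X]) = C ρ * (-9 - C ρ) := by
      have : (27 : Kbar) = ρ * (-9 - ρ) := by linear_combination hρ
      rw [show (27 : Kbar[X]) = C (27 : Kbar) from (map_ofNat C 27).symm, this, C_mul, map_sub,
        map_neg, show (C (9 : Kbar) : Kbar[X]) = 9 from map_ofNat C 9]
    rw [h27]
    ring
  have hne : ρ ≠ -9 - ρ := by
    intro h
    have h2 : (2 : Kbar) * ρ = -9 := by linear_combination h
    have h3 : (4 : Kbar) * (ρ ^ 2 + 9 * ρ + 27) = (2 * ρ) ^ 2 + 18 * (2 * ρ) + 108 := by ring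
    rw [hρ, h2] at h3
    norm_num at h3
  rw [Dp, rootMultiplicity_mul (by rw [← Dp]; exact Dp_ne_zero), hfac,
    rootMultiplicity_mul (by rw [← hfac]; exact Qp_ne_zero), rootMultiplicity_X_sub_C_self,
    rootMultiplicity_eq_zero (p := (X ^ 9 : Kbar[X])) (by simpa using hρ0),
    rootMultiplicity_eq_zero (p := (X - C (-9 - ρ) : Kbar[X]))
      (by simp only [IsRoot.def, eval_sub, eval_X, eval_C]; exact sub_ne_zero.mpr hne)]

include hj in
/-- at a zero of `t - ρ`, `ρ` a root of `X² + 9 X + 27` (the two other finite cusp values):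
`ord_v (t - ρ) ∣ M`. -/
theorem ord_t9Bar_sub_root_dvd_of_pos (ρ : Kbar) (hρ : ρ ^ 2 + 9 * ρ + 27 = 0)
    (v : Place Kbar (FF M))
    (hv : 0 < v.ord (t9Bar M h9 t9 hmem - algebraMap Kbar (FF M) ρ)) :
    v.ord (t9Bar M h9 t9 hmem - algebraMap Kbar (FF M) ρ) ∣ (M : ℤ) := by
  have hD0 : (Dp Kbar).eval ρ = 0 := by rw [eval_Dp, hρ, mul_zero]
  have h := ord_J_of_pos v (t9Bar M h9 t9 hmem) (J M) ρ _ _ (J_ne_zero' M)
    (rel_t9Bar M h9 t9 hmem hj) (eval_Rn_ne_zero_of_eval_Dp three_ne_zero hD0) Dp_ne_zero hv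
  rw [rootMultiplicity_root_Dp ρ hρ] at h
  have hneg : v.ord (J M) < 0 := by rw [h]; push_cast; omega
  have hd := ord_J_dvd_of_neg M v hneg
  rw [h] at hd
  have h2 := (neg_dvd).mp hd
  simpa using h2

end Bar

end

end Fermat.Agent.S18.NoElliptic.Level9G
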