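import Mathlib
import Fermat.Agent.S18.NoElliptic.CuspOrd
import Fermat.Agent.S18.Haupt.Level4Degree
import Fermat.Agent.S18.Haupt9.Cusp

/-!
# S18, block D5 (inverse coordinate): the second chart coordinate `u = 1/t`

The chart `B^{1/t}` (integral closure of `R[1/t]`) uses the coordinate `u = t⁻¹`.  This file
transports the landed facts about the Hauptmoduln `t = t4Bar M h4` (`4 ∣ M`) and
`t = t9Bar M h9` (`9 ∣ M`) to `u`:

* generic (any function field, Prelude `Place` API): at a place with `0 < ord (t⁻¹ - u₀)`,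
  `u₀ ≠ 0`: `t ≠ 0`, `ord t = 0` and `ord (t⁻¹ - u₀) = ord (t - u₀⁻¹)` (`ord_inv_sub`);
* uniform statements for `t` itself: **every** ramification index of the `t`-line divides `M`
  (`ord_t4Bar_sub_dvd`, `ord_t9Bar_sub_dvd`: all finite values; poles in `CuspOrd`/`Haupt9.Cusp`);
* (D5) for `u`: `ord (u - u₀) = 1` at positive places when `u₀ (16 u₀ + 1) ≠ 0`
  (level 4) resp. `u₀ (27 u₀² + 9 u₀ + 1) ≠ 0` (level 9);
* all ramification indices of the `u`-line divide `M` (`ord_t4Bar_inv_sub_dvd`,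
  `ord_t4Bar_inv_dvd_of_neg`, and the level-9 twins);
* `u` is transcendental, `K(u) = K(t)`, `FF M` is finite over `K(u)` and
  `ψ(M) = 6 [FF M : K(u)]` resp. `12 [FF M : K(u)]`.
-/

set_option autoImplicit false
set_option linter.unusedSectionVars false
set_option linter.unusedVariables false

namespace Fermat.Agent.S18.NoElliptic.InvCoord

open AlgebraicCurve Polynomial IntermediateField ModularCurve
open Fermat.Agent.S24 Fermat.Agent.S24.BridgeInv Fermat.Agent.S24.PlaceAt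
  Fermat.Agent.S24.FiniteFibres Fermat.Agent.S18.NoElliptic

noncomputable section

/-! ### generic -/

section Generic

variable {K F : Type*} [Field K] [Field F] [Algebra K F]

/-- a positive order forces the element to be non-zero. -/
theorem ne_zero_of_ord_pos (v : Place K F) {x : F} (hv : 0 < v.ord x) : x ≠ 0 := by
  rintro rfl
  rw [Place.ord_zero] at hv
  exact lt_irrefl _ hv

theorem ne_zero_of_ord_neg (v : Place K F) {x : F} (hv : v.ord x < 0) : x ≠ 0 := by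
  rintro rfl
  rw [Place.ord_zero] at hv
  exact lt_irrefl _ hv

/-- at a place over `t = t₀` with `t₀ ≠ 0`, `t` is a unit. -/
theorem ord_eq_zero_of_sub_pos (v : Place K F) (t : F) (t0 : K) (h0 : t0 ≠ 0)
    (hv : 0 < v.ord (t - algebraMap K F t0)) : t ≠ 0 ∧ v.ord t = 0 := by
  have hO := isOrdFun_placeOrd v
  have hw : t - algebraMap K F t0 ≠ 0 := ne_zero_of_ord_pos v hv
  have hc : algebraMap K F t0 ≠ 0 := fun h =>
    h0 ((map_eq_zero (algebraMap K F)).mp h)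
  have hc0 : v.ord (algebraMap K F t0) = 0 := hO.const t0 h0
  have ht : t = algebraMap K F t0 + (t - algebraMap K F t0) := by ring
  have hord : v.ord t = 0 := by
    have h := (hO.add_eq_of_lt hc hw (by rw [hc0]; exact hv)).2
    rw [← ht, hc0] at h
    exact h
  refine ⟨?_, hord⟩
  rintro rfl
  rw [zero_sub] at hv
  rw [hO.neg _ hc, hc0] at hv
  exact lt_irrefl _ hv

/-- **inverse coordinate**: over a value `u₀ ≠ 0` of `u = t⁻¹` the order of `u - u₀` is the order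
of `t - u₀⁻¹`. -/
theorem ord_inv_sub (v : Place K F) (t : F) (u0 : K) (hu0 : u0 ≠ 0)
    (hv : 0 < v.ord (t⁻¹ - algebraMap K F u0)) :
    t ≠ 0 ∧ v.ord t = 0 ∧
      v.ord (t⁻¹ - algebraMap K F u0) = v.ord (t - algebraMap K F u0⁻¹) := by
  have hO := isOrdFun_placeOrd v
  obtain ⟨hti, htiord⟩ := ord_eq_zero_of_sub_pos v t⁻¹ u0 hu0 hv
  have ht0 : t ≠ 0 := fun h => hti (by rw [h, inv_zero])
  have htord : v.ord t = 0 := by
    have := Place.ord_inv v t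
    omega
  have hc : algebraMap K F u0 ≠ 0 := fun h =>
    hu0 ((map_eq_zero (algebraMap K F)).mp h)
  have hw : t⁻¹ - algebraMap K F u0 ≠ 0 := ne_zero_of_ord_pos v hv
  have hkey : t⁻¹ - algebraMap K F u0
      = -(algebraMap K F u0 * t⁻¹) * (t - algebraMap K F u0⁻¹) := by
    rw [map_inv₀]
    field_simp
    ring
  have hfac : -(algebraMap K F u0 * t⁻¹) ≠ 0 := neg_ne_zero.mpr (mul_ne_zero hc hti)
  have hsub : t - algebraMap K F u0⁻¹ ≠ 0 := by
    intro h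
    rw [h, mul_zero] at hkey
    exact hw hkey
  refine ⟨ht0, htord, ?_⟩
  have h1 : v.ord (-(algebraMap K F u0 * t⁻¹)) = 0 := by
    rw [hO.neg _ (mul_ne_zero hc hti), v.ord_mul hc hti, hO.const u0 hu0, htiord, add_zero]
  conv_lhs => rw [hkey]
  rw [v.ord_mul hfac hsub, h1, zero_add]

/-- the inverse coordinate is unramified wherever the coordinate is. -/
theorem ord_inv_sub_eq_one (v : Place K F) (t : F) (u0 : K) (hu0 : u0 ≠ 0)
    (H : 0 < v.ord (t - algebraMap K F u0⁻¹) → v.ord (t - algebraMap K F u0⁻¹) = 1)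
    (hv : 0 < v.ord (t⁻¹ - algebraMap K F u0)) :
    v.ord (t⁻¹ - algebraMap K F u0) = 1 := by
  obtain ⟨-, -, h⟩ := ord_inv_sub v t u0 hu0 hv
  rw [h]
  exact H (by rw [← h]; exact hv)

end Generic

/-! ### level `4 ∣ M` -/

section Level4

open Fermat.Agent.S18.Haupt Fermat.Agent.S18.Haupt.Level4Degree

variable (M : ℕ) [NeZero M] (h4 : 4 ∣ M)

/-- **all finite ramification indices of the `t₄`-line divide `M`.** -/
theorem ord_t4Bar_sub_dvd (v : Place Kbar (FF M)) (t0 : Kbar)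
    (hv : 0 < v.ord (t4Bar M h4 - algebraMap Kbar (FF M) t0)) :
    v.ord (t4Bar M h4 - algebraMap Kbar (FF M) t0) ∣ (M : ℤ) := by
  by_cases h0 : t0 = 0
  · subst h0
    rw [map_zero, sub_zero] at hv ⊢
    exact ord_t4Bar_dvd_of_pos M h4 v hv
  by_cases h16 : t0 = -16
  · subst h16
    have e : t4Bar M h4 - algebraMap Kbar (FF M) (-16) = t4Bar M h4 + 16 := by
      rw [map_neg, sub_neg_eq_add, map_ofNat]
    rw [e] at hv ⊢
    exact ord_t4Bar_add_dvd_of_pos M h4 v hv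
  · rw [ord_t4Bar_sub_eq_one M h4 v t0 h0 h16 hv]
    exact one_dvd _

/-- **(D5) for `u = 1/t₄`**: unramified over `u₀` with `u₀ (16 u₀ + 1) ≠ 0`. -/
theorem ord_t4Bar_inv_sub_eq_one (v : Place Kbar (FF M)) (u0 : Kbar) (h0 : u0 ≠ 0)
    (h16 : 16 * u0 + 1 ≠ 0)
    (hv : 0 < v.ord ((t4Bar M h4)⁻¹ - algebraMap Kbar (FF M) u0)) :
    v.ord ((t4Bar M h4)⁻¹ - algebraMap Kbar (FF M) u0) = 1 := by
  refine ord_inv_sub_eq_one v _ u0 h0 (fun h => ?_) hv
  refine ord_t4Bar_sub_eq_one M h4 v u0⁻¹ (inv_ne_zero h0) (fun h' => h16 ?_) h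
  have : u0 * u0⁻¹ = 1 := mul_inv_cancel₀ h0
  rw [h'] at this
  linear_combination -this

/-- (D5) for `u = 1/t₄` in polynomial form, `c̃ = X (16 X + 1)`. -/
theorem ord_t4Bar_inv_sub_eq_one' (v : Place Kbar (FF M)) (u0 : Kbar)
    (hc : (X * (16 * X + 1) : Kbar[X]).eval u0 ≠ 0)
    (hv : 0 < v.ord ((t4Bar M h4)⁻¹ - algebraMap Kbar (FF M) u0)) :
    v.ord ((t4Bar M h4)⁻¹ - algebraMap Kbar (FF M) u0) = 1 := by
  simp only [eval_mul, eval_add, eval_X, eval_ofNat, eval_one] at hc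
  exact ord_t4Bar_inv_sub_eq_one M h4 v u0 (left_ne_zero_of_mul hc) (right_ne_zero_of_mul hc) hv

/-- zeros of `u = 1/t₄` are the poles of `t₄`: the order divides `M`. -/
theorem ord_t4Bar_inv_dvd_of_pos (v : Place Kbar (FF M)) (hv : 0 < v.ord (t4Bar M h4)⁻¹) :
    v.ord (t4Bar M h4)⁻¹ ∣ (M : ℤ) := by
  rw [Place.ord_inv] at hv ⊢
  exact (neg_dvd).mpr (ord_t4Bar_dvd_of_neg M h4 v (by omega))

/-- poles of `u = 1/t₄` are the zeros of `t₄`: the order divides `M`. -/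
theorem ord_t4Bar_inv_dvd_of_neg (v : Place Kbar (FF M)) (hv : v.ord (t4Bar M h4)⁻¹ < 0) :
    v.ord (t4Bar M h4)⁻¹ ∣ (M : ℤ) := by
  rw [Place.ord_inv] at hv ⊢
  exact (neg_dvd).mpr (ord_t4Bar_dvd_of_pos M h4 v (by omega))

/-- **all finite ramification indices of the `u`-line, `u = 1/t₄`, divide `M`.** -/
theorem ord_t4Bar_inv_sub_dvd (v : Place Kbar (FF M)) (u0 : Kbar)
    (hv : 0 < v.ord ((t4Bar M h4)⁻¹ - algebraMap Kbar (FF M) u0)) :
    v.ord ((t4Bar M h4)⁻¹ - algebraMap Kbar (FF M) u0) ∣ (M : ℤ) := by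
  by_cases h0 : u0 = 0
  · subst h0
    rw [map_zero, sub_zero] at hv ⊢
    exact ord_t4Bar_inv_dvd_of_pos M h4 v hv
  · obtain ⟨-, -, h⟩ := ord_inv_sub v (t4Bar M h4) u0 h0 hv
    rw [h]
    exact ord_t4Bar_sub_dvd M h4 v u0⁻¹ (by rw [← h]; exact hv)

theorem t4Bar_ne_zero : t4Bar M h4 ≠ 0 := fun h =>
  (transcendental_t4Bar M h4) (by rw [h]; exact isAlgebraic_zero)

/-- `u = 1/t₄` is transcendental over `K`. -/
theorem transcendental_t4Bar_inv : Transcendental Kbar (t4Bar M h4)⁻¹ :=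
  FFPrin.transcendental_inv (transcendental_t4Bar M h4)

/-- `K(1/t₄) = K(t₄)`. -/
theorem adjoin_t4Bar_inv : Kbar⟮(t4Bar M h4)⁻¹⟯ = Kbar⟮t4Bar M h4⟯ :=
  Exhaust.adjoin_inv_eq (t4Bar M h4)

/-- `FF M` is finite over `K(1/t₄)`. -/
theorem finiteDimensional_t4Bar_inv : FiniteDimensional Kbar⟮(t4Bar M h4)⁻¹⟯ (FF M) := by
  rw [adjoin_t4Bar_inv]
  exact finiteDimensional_t4Bar M h4

/-- `ψ(M) = 6 [FF M : K(1/t₄)]`. -/
theorem psi_eq_six_mul_inv :
    dedekindPsi M = 6 * Module.finrank Kbar⟮(t4Bar M h4)⁻¹⟯ (FF M) := by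
  rw [adjoin_t4Bar_inv]
  exact psi_eq_six_mul M h4

end Level4

/-! ### level `9 ∣ M` -/

section Level9

open Fermat.Agent.S18.Haupt9

variable (M : ℕ) [NeZero M] (h9 : 9 ∣ M)

/-- **all finite ramification indices of the `t₉`-line divide `M`.** -/
theorem ord_t9Bar_sub_dvd (v : Place Kbar (FF M)) (t0 : Kbar)
    (hv : 0 < v.ord (t9Bar M h9 - algebraMap Kbar (FF M) t0)) :
    v.ord (t9Bar M h9 - algebraMap Kbar (FF M) t0) ∣ (M : ℤ) := by
  by_cases h0 : t0 = 0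
  · subst h0
    rw [map_zero, sub_zero] at hv ⊢
    exact ord_t9Bar_dvd_of_pos M h9 v hv
  by_cases h27 : t0 ^ 2 + 9 * t0 + 27 = 0
  · exact ord_t9Bar_sub_root_dvd_of_pos M h9 t0 h27 v hv
  · rw [ord_t9Bar_sub_eq_one M h9 v t0 h0 h27 hv]
    exact one_dvd _

/-- **(D5) for `u = 1/t₉`**: unramified over `u₀` with `u₀ (27 u₀² + 9 u₀ + 1) ≠ 0`. -/
theorem ord_t9Bar_inv_sub_eq_one (v : Place Kbar (FF M)) (u0 : Kbar) (h0 : u0 ≠ 0)
    (h27 : 27 * u0 ^ 2 + 9 * u0 + 1 ≠ 0)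
    (hv : 0 < v.ord ((t9Bar M h9)⁻¹ - algebraMap Kbar (FF M) u0)) :
    v.ord ((t9Bar M h9)⁻¹ - algebraMap Kbar (FF M) u0) = 1 := by
  refine ord_inv_sub_eq_one v _ u0 h0 (fun h => ?_) hv
  refine ord_t9Bar_sub_eq_one M h9 v u0⁻¹ (inv_ne_zero h0) (fun h' => h27 ?_) h
  have hu : u0 * u0⁻¹ = 1 := mul_inv_cancel₀ h0
  have : u0 ^ 2 * (u0⁻¹ ^ 2 + 9 * u0⁻¹ + 27) = 27 * u0 ^ 2 + 9 * u0 + 1 := by
    linear_combination (u0 * u0⁻¹ + 1 + 9 * u0) * hu
  rw [← this, h', mul_zero]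

/-- (D5) for `u = 1/t₉` in polynomial form, `c̃ = X (27 X² + 9 X + 1)`. -/
theorem ord_t9Bar_inv_sub_eq_one' (v : Place Kbar (FF M)) (u0 : Kbar)
    (hc : (X * (27 * X ^ 2 + 9 * X + 1) : Kbar[X]).eval u0 ≠ 0)
    (hv : 0 < v.ord ((t9Bar M h9)⁻¹ - algebraMap Kbar (FF M) u0)) :
    v.ord ((t9Bar M h9)⁻¹ - algebraMap Kbar (FF M) u0) = 1 := by
  simp only [eval_mul, eval_add, eval_pow, eval_X, eval_ofNat, eval_one] at hc
  exact ord_t9Bar_inv_sub_eq_one M h9 v u0 (left_ne_zero_of_mul hc) (right_ne_zero_of_mul hc) hv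

/-- zeros of `u = 1/t₉` are the poles of `t₉`: the order divides `M`. -/
theorem ord_t9Bar_inv_dvd_of_pos (v : Place Kbar (FF M)) (hv : 0 < v.ord (t9Bar M h9)⁻¹) :
    v.ord (t9Bar M h9)⁻¹ ∣ (M : ℤ) := by
  rw [Place.ord_inv] at hv ⊢
  exact (neg_dvd).mpr (ord_t9Bar_dvd_of_neg M h9 v (by omega))

/-- poles of `u = 1/t₉` are the zeros of `t₉`: the order divides `M`. -/
theorem ord_t9Bar_inv_dvd_of_neg (v : Place Kbar (FF M)) (hv : v.ord (t9Bar M h9)⁻¹ < 0) :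
    v.ord (t9Bar M h9)⁻¹ ∣ (M : ℤ) := by
  rw [Place.ord_inv] at hv ⊢
  exact (neg_dvd).mpr (ord_t9Bar_dvd_of_pos M h9 v (by omega))

/-- **all finite ramification indices of the `u`-line, `u = 1/t₉`, divide `M`.** -/
theorem ord_t9Bar_inv_sub_dvd (v : Place Kbar (FF M)) (u0 : Kbar)
    (hv : 0 < v.ord ((t9Bar M h9)⁻¹ - algebraMap Kbar (FF M) u0)) :
    v.ord ((t9Bar M h9)⁻¹ - algebraMap Kbar (FF M) u0) ∣ (M : ℤ) := by
  by_cases h0 : u0 = 0
  · subst h0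
    rw [map_zero, sub_zero] at hv ⊢
    exact ord_t9Bar_inv_dvd_of_pos M h9 v hv
  · obtain ⟨-, -, h⟩ := ord_inv_sub v (t9Bar M h9) u0 h0 hv
    rw [h]
    exact ord_t9Bar_sub_dvd M h9 v u0⁻¹ (by rw [← h]; exact hv)

theorem t9Bar_ne_zero : t9Bar M h9 ≠ 0 := fun h =>
  (transcendental_t9Bar M h9) (by rw [h]; exact isAlgebraic_zero)

/-- `u = 1/t₉` is transcendental over `K`. -/
theorem transcendental_t9Bar_inv : Transcendental Kbar (t9Bar M h9)⁻¹ :=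
  FFPrin.transcendental_inv (transcendental_t9Bar M h9)

/-- `K(1/t₉) = K(t₉)`. -/
theorem adjoin_t9Bar_inv : Kbar⟮(t9Bar M h9)⁻¹⟯ = Kbar⟮t9Bar M h9⟯ :=
  Exhaust.adjoin_inv_eq (t9Bar M h9)

/-- `FF M` is finite over `K(1/t₉)`. -/
theorem finiteDimensional_t9Bar_inv : FiniteDimensional Kbar⟮(t9Bar M h9)⁻¹⟯ (FF M) := by
  rw [adjoin_t9Bar_inv]
  exact finiteDimensional_t9Bar M h9

/-- `ψ(M) = 12 [FF M : K(1/t₉)]`. -/
theorem psi_eq_twelve_mul_inv :
    dedekindPsi M = 12 * Module.finrank Kbar⟮(t9Bar M h9)⁻¹⟯ (FF M) := by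
  rw [adjoin_t9Bar_inv]
  exact psi_eq_twelve_mul M h9

end Level9

end

end Fermat.Agent.S18.NoElliptic.InvCoord
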