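import Mathlib
import Fermat.Agent.S18.NoElliptic.InvCoord

/-!
# S18, block D5 (shifted coordinates): the coordinates `t - a` vanishing at a cusp value

For the Kummer covers of block CUSP one extracts an `e`-th root of the coordinate `τ = t - a`
vanishing at a finite cusp value `a` (and of `τ⁻¹`).  This file records, for `t = t4Bar M h4`
(`4 ∣ M`) and `t = t9Bar M h9` (`9 ∣ M`), uniformly in `a : ℚ̄`:

* generic: at a pole of `t`, `ord (t - a) = ord t` (`ord_sub_const_of_neg`);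
* **tameness**: every non-zero order of `t - a` (zero or pole) divides `M`
  (`ord_t4Bar_sub_dvd_of_ne_zero`, `ord_t9Bar_sub_dvd_of_ne_zero`), and the same for `(t - a)⁻¹`;
* (D5) for the shifted coordinate: `ord ((t - a) - s₀) = 1` at positive places when `s₀ + a` is not
  a cusp value.
-/

set_option autoImplicit false
set_option linter.unusedSectionVars false
set_option linter.unusedVariables false

namespace Fermat.Agent.S18.NoElliptic.ShiftCoord

open AlgebraicCurve Polynomial IntermediateField ModularCurve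
open Fermat.Agent.S24 Fermat.Agent.S24.BridgeInv Fermat.Agent.S24.PlaceAt
  Fermat.Agent.S18.NoElliptic Fermat.Agent.S18.NoElliptic.InvCoord

noncomputable section

section Generic

variable {K F : Type*} [Field K] [Field F] [Algebra K F]

/-- at a pole of `t` the order of `t - a` is the order of `t`. -/
theorem ord_sub_const_of_neg (v : Place K F) (t : F) (a : K) (hv : v.ord t < 0) :
    v.ord (t - algebraMap K F a) = v.ord t := by
  have hO := isOrdFun_placeOrd v
  by_cases ha : a = 0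
  · rw [ha, map_zero, sub_zero]
  have ht0 : t ≠ 0 := ne_zero_of_ord_neg v hv
  have hc : -algebraMap K F a ≠ 0 := neg_ne_zero.mpr fun h =>
    ha ((map_eq_zero (algebraMap K F)).mp h)
  have hc0 : v.ord (-algebraMap K F a) = 0 := by
    rw [← map_neg]
    exact hO.const (-a) (neg_ne_zero.mpr ha)
  have h := (hO.add_eq_of_lt ht0 hc (by rw [hc0]; exact hv)).2
  rwa [← sub_eq_add_neg] at h

/-- a pole of `t - a` is a pole of `t`, with the same order. -/
theorem ord_of_sub_const_neg (v : Place K F) (t : F) (a : K)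
    (hv : v.ord (t - algebraMap K F a) < 0) :
    v.ord t < 0 ∧ v.ord (t - algebraMap K F a) = v.ord t := by
  have h := ord_sub_const_of_neg v (t - algebraMap K F a) (-a) hv
  rw [map_neg, sub_neg_eq_add, sub_add_cancel] at h
  exact ⟨by rw [h]; exact hv, h.symm⟩

end Generic

/-! ### level `4 ∣ M` -/

section Level4

open Fermat.Agent.S18.Haupt

variable (M : ℕ) [NeZero M] (h4 : 4 ∣ M)

/-- poles of `t₄ - a`: the order divides `M`. -/
theorem ord_t4Bar_sub_dvd_of_neg (v : Place Kbar (FF M)) (a : Kbar)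
    (hv : v.ord (t4Bar M h4 - algebraMap Kbar (FF M) a) < 0) :
    v.ord (t4Bar M h4 - algebraMap Kbar (FF M) a) ∣ (M : ℤ) := by
  obtain ⟨h1, h2⟩ := ord_of_sub_const_neg v _ a hv
  rw [h2]
  exact ord_t4Bar_dvd_of_neg M h4 v h1

/-- **tameness of the `t₄`-line in every coordinate `t₄ - a`**: every non-zero order divides
`M`. -/
theorem ord_t4Bar_sub_dvd_of_ne_zero (v : Place Kbar (FF M)) (a : Kbar)
    (hv : v.ord (t4Bar M h4 - algebraMap Kbar (FF M) a) ≠ 0) :
    v.ord (t4Bar M h4 - algebraMap Kbar (FF M) a) ∣ (M : ℤ) := by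
  rcases lt_or_gt_of_ne hv with h | h
  · exact ord_t4Bar_sub_dvd_of_neg M h4 v a h
  · exact ord_t4Bar_sub_dvd M h4 v a h

/-- the same for the inverse coordinate `(t₄ - a)⁻¹`. -/
theorem ord_t4Bar_sub_inv_dvd_of_ne_zero (v : Place Kbar (FF M)) (a : Kbar)
    (hv : v.ord (t4Bar M h4 - algebraMap Kbar (FF M) a)⁻¹ ≠ 0) :
    v.ord (t4Bar M h4 - algebraMap Kbar (FF M) a)⁻¹ ∣ (M : ℤ) := by
  rw [Place.ord_inv] at hv ⊢
  exact (neg_dvd).mpr (ord_t4Bar_sub_dvd_of_ne_zero M h4 v a (by omega))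

/-- **(D5) for the shifted coordinate `τ = t₄ - a`**: unramified over `s₀` when `s₀ + a` is not a
cusp value. -/
theorem ord_t4Bar_shift_sub_eq_one (v : Place Kbar (FF M)) (a s0 : Kbar) (h0 : s0 + a ≠ 0)
    (h16 : s0 + a ≠ -16)
    (hv : 0 < v.ord (t4Bar M h4 - algebraMap Kbar (FF M) a - algebraMap Kbar (FF M) s0)) :
    v.ord (t4Bar M h4 - algebraMap Kbar (FF M) a - algebraMap Kbar (FF M) s0) = 1 := by
  have e : t4Bar M h4 - algebraMap Kbar (FF M) a - algebraMap Kbar (FF M) s0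
      = t4Bar M h4 - algebraMap Kbar (FF M) (s0 + a) := by
    rw [map_add]; ring
  rw [e] at hv ⊢
  exact ord_t4Bar_sub_eq_one M h4 v (s0 + a) h0 h16 hv

end Level4

/-! ### level `9 ∣ M` -/

section Level9

open Fermat.Agent.S18.Haupt9

variable (M : ℕ) [NeZero M] (h9 : 9 ∣ M)

/-- poles of `t₉ - a`: the order divides `M`. -/
theorem ord_t9Bar_sub_dvd_of_neg (v : Place Kbar (FF M)) (a : Kbar)
    (hv : v.ord (t9Bar M h9 - algebraMap Kbar (FF M) a) < 0) :
    v.ord (t9Bar M h9 - algebraMap Kbar (FF M) a) ∣ (M : ℤ) := by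
  obtain ⟨h1, h2⟩ := ord_of_sub_const_neg v _ a hv
  rw [h2]
  exact ord_t9Bar_dvd_of_neg M h9 v h1

/-- **tameness of the `t₉`-line in every coordinate `t₉ - a`**: every non-zero order divides
`M`. -/
theorem ord_t9Bar_sub_dvd_of_ne_zero (v : Place Kbar (FF M)) (a : Kbar)
    (hv : v.ord (t9Bar M h9 - algebraMap Kbar (FF M) a) ≠ 0) :
    v.ord (t9Bar M h9 - algebraMap Kbar (FF M) a) ∣ (M : ℤ) := by
  rcases lt_or_gt_of_ne hv with h | h
  · exact ord_t9Bar_sub_dvd_of_neg M h9 v a h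
  · exact ord_t9Bar_sub_dvd M h9 v a h

/-- the same for the inverse coordinate `(t₉ - a)⁻¹`. -/
theorem ord_t9Bar_sub_inv_dvd_of_ne_zero (v : Place Kbar (FF M)) (a : Kbar)
    (hv : v.ord (t9Bar M h9 - algebraMap Kbar (FF M) a)⁻¹ ≠ 0) :
    v.ord (t9Bar M h9 - algebraMap Kbar (FF M) a)⁻¹ ∣ (M : ℤ) := by
  rw [Place.ord_inv] at hv ⊢
  exact (neg_dvd).mpr (ord_t9Bar_sub_dvd_of_ne_zero M h9 v a (by omega))

/-- **(D5) for the shifted coordinate `τ = t₉ - a`**: unramified over `s₀` when `s₀ + a` is not a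
cusp value. -/
theorem ord_t9Bar_shift_sub_eq_one (v : Place Kbar (FF M)) (a s0 : Kbar) (h0 : s0 + a ≠ 0)
    (h27 : (s0 + a) ^ 2 + 9 * (s0 + a) + 27 ≠ 0)
    (hv : 0 < v.ord (t9Bar M h9 - algebraMap Kbar (FF M) a - algebraMap Kbar (FF M) s0)) :
    v.ord (t9Bar M h9 - algebraMap Kbar (FF M) a - algebraMap Kbar (FF M) s0) = 1 := by
  have e : t9Bar M h9 - algebraMap Kbar (FF M) a - algebraMap Kbar (FF M) s0
      = t9Bar M h9 - algebraMap Kbar (FF M) (s0 + a) := by
    rw [map_add]; ring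
  rw [e] at hv ⊢
  exact ord_t9Bar_sub_eq_one M h9 v (s0 + a) h0 h27 hv

end Level9

end

end Fermat.Agent.S18.NoElliptic.ShiftCoord
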