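import Mathlib
import Fermat.Agent.S18.NoElliptic.Transport
import Fermat.Agent.S18.Haupt.Level4Mem

/-!
# S18, block D5, final form at level `4 ∣ M` (unconditional)

`tBar4 M h4 : FF M` is the Hauptmodul `t4` of `Γ₀(4)` (block D4a, `Haupt.t4`) viewed in
`FF M = modularFunctionFieldBar M`, `4 ∣ M`.  Then

* `J_mul_tBar4` : `J * t⁴ (t + 16) = (t² + 256 t + 4096)³` in `FF M`;
* `ord_tBar4_sub_eq_one` : for every place `v` of `FF M` and every `t0 ≠ 0, -16`,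
  `0 < ord_v (t - t0) → ord_v (t - t0) = 1`
  (`FF M / K(t)` is unramified outside the cusp values `t = ∞, 0, -16`).
-/

set_option autoImplicit false
set_option linter.unusedSectionVars false
set_option linter.unusedVariables false

namespace Fermat.Agent.S18.NoElliptic

open AlgebraicCurve ModularCurve Fermat.Agent.S24 Fermat.Agent.S24.BridgeInv
  Fermat.Agent.S24.PlaceAt

noncomputable section

variable (M : ℕ) [NeZero M]

/-- the Hauptmodul of `Γ₀(4)` as an element of `FF M`, `4 ∣ M`. -/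
def tBar4 (h4 : 4 ∣ M) : FF M :=
  ratT M Fermat.Agent.S18.Haupt.t4 (mem_full_of_dvd M h4 Fermat.Agent.S18.Haupt.t4_mem_full)

@[simp] theorem coe_tBar4 (h4 : 4 ∣ M) :
    ((tBar4 M h4 : FF M) : LaurentSeries Kbar) = coeffEmb Kbar Fermat.Agent.S18.Haupt.t4 := rfl

theorem t4_rel : jq * Fermat.Agent.S18.Haupt.t4 ^ 4 * (Fermat.Agent.S18.Haupt.t4 + 16)
    = (Fermat.Agent.S18.Haupt.t4 ^ 2 + 256 * Fermat.Agent.S18.Haupt.t4 + 4096) ^ 3 := by
  rw [mul_assoc]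
  exact Fermat.Agent.S18.Haupt.jq_mul

/-- `J t⁴ (t + 16) = (t² + 256 t + 4096)³` in `FF M`. -/
theorem J_mul_tBar4 (h4 : 4 ∣ M) :
    J M * tBar4 M h4 ^ 4 * (tBar4 M h4 + 16)
      = (tBar4 M h4 ^ 2 + 256 * tBar4 M h4 + 4096) ^ 3 := by
  rw [J_eq_ratT]
  have hx := mem_full_of_dvd M h4 Fermat.Agent.S18.Haupt.t4_mem_full
  have e : (⟨jq, jq_mem_full M⟩ : ↥(modularFunctionFieldFull M))
      * ⟨Fermat.Agent.S18.Haupt.t4, hx⟩ ^ 4 * (⟨Fermat.Agent.S18.Haupt.t4, hx⟩ + 16)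
      = (⟨Fermat.Agent.S18.Haupt.t4, hx⟩ ^ 2 + 256 * ⟨Fermat.Agent.S18.Haupt.t4, hx⟩ + 4096) ^ 3 :=
    Subtype.ext t4_rel
  have e' := congrArg (ratEmb M) e
  simp only [map_mul, map_pow, map_add, map_ofNat] at e'
  exact e'

/-- **D5 at level `4 ∣ M`, unconditional**: `FF M / K(t)` is unramified outside `t = ∞, 0, -16`. -/
theorem ord_tBar4_sub_eq_one (h4 : 4 ∣ M) (v : Place Kbar (FF M)) (t0 : Kbar) (h0 : t0 ≠ 0)
    (h16 : t0 ≠ -16) (hv : 0 < v.ord (tBar4 M h4 - algebraMap Kbar (FF M) t0)) :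
    v.ord (tBar4 M h4 - algebraMap Kbar (FF M) t0) = 1 :=
  ord_sub_eq_one_of_four_dvd M h4 (tBar4 M h4) (J_mul_tBar4 M h4) v t0 h0 h16 hv

end

end Fermat.Agent.S18.NoElliptic
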